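import Fermat.Agent.Semistable.Galois
import Fermat.Agent.SemistableNodes.Descent
import Fermat.Agent.SemistableNodes.Scale

/-!
# Fixed functions on `X₀(Mq)` and their expansions

Functions fixed by a group of automorphisms of `ℚ̄` are quotients of fixed integral expansions
(`exists_fixed_frac`), have scales (`exists_fixed_series`) and controlled deviations under an
automorphism of the constants (`exists_dev_gauss`). Used for the wild setting.
-/

set_option autoImplicit false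

noncomputable section

open AlgebraicCurve ModularCurve FLTAgent.Semistable FLTAgent.Semistable.Level
open FLTAgent.HeckeJacobian

namespace FLTAgent.SemistableWild

open FLTAgent.Density (GalQ)

local notation "Qbar" => AlgebraicClosure ℚ

/-- Automorphisms of `ℚ̄` as semilinear automorphisms of the function field of `X₀(N)`. -/
abbrev gal (N : ℕ) [NeZero N] : GalQ →* SemilinearAut Qbar (modularFunctionFieldBar N) :=
  arithmeticGalois (modularFunctionFieldFull N)

variable {M q : ℕ} [NeZero M] [Fact q.Prime]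

theorem ι₁_gal_smul (σ : GalQ) (x : modularFunctionFieldBar (M * q)) :
    ι₁ M q (gal (M * q) σ • x) = coeffMap (σ : Qbar →+* Qbar) (ι₁ M q x) :=
  coe_arithmeticGalois_smul _ σ x

theorem coeff_gal_smul (σ : GalQ) (x : modularFunctionFieldBar (M * q)) (n : ℤ) :
    (ι₁ M q (gal (M * q) σ • x)).coeff n = σ ((ι₁ M q x).coeff n) := by
  rw [ι₁_gal_smul]; rfl

theorem gal_smul_algebraMap (σ : GalQ) (c : Qbar) :
    gal (M * q) σ • algebraMap Qbar (modularFunctionFieldBar (M * q)) c =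
      algebraMap Qbar (modularFunctionFieldBar (M * q)) (σ c) := by
  rw [SemilinearAut.smul_algebraMap, baseAut_arithmeticGalois]; rfl

theorem gal_smul_of_mem_gensRing (σ : GalQ) {x : modularFunctionFieldBar (M * q)}
    (hx : x ∈ gensRing (M * q)) : gal (M * q) σ • x = x := by
  obtain ⟨y, hy⟩ := intSeries_ι₁ x hx
  refine (ι₁ M q).injective (HahnSeries.ext (funext fun n => ?_))
  show (ι₁ M q (gal (M * q) σ • x)).coeff n = (ι₁ M q x).coeff n
  rw [coeff_gal_smul, ← hy, coeffMap_coeff]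
  exact map_intCast σ _

local notation "Adj" => Algebra.adjoin Qbar (gensRing (M * q) : Set
    (modularFunctionFieldBar (M * q)))

theorem gal_smul_mem_adjoin (σ : GalQ) {x : modularFunctionFieldBar (M * q)} (hx : x ∈ Adj) :
    gal (M * q) σ • x ∈ Adj := by
  induction hx using Algebra.adjoin_induction with
  | mem y hy => rw [gal_smul_of_mem_gensRing σ hy]; exact Algebra.subset_adjoin hy
  | algebraMap c => rw [gal_smul_algebraMap]; exact Subalgebra.algebraMap_mem _ _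
  | add a b _ _ ha hb => rw [smul_add]; exact add_mem ha hb
  | mul a b _ _ ha hb => rw [smul_mul']; exact mul_mem ha hb

theorem exists_finset_stab_adjoin {x : modularFunctionFieldBar (M * q)} (hx : x ∈ Adj) :
    ∃ s : Finset Qbar, ∀ σ : GalQ, (∀ l ∈ s, σ l = l) → gal (M * q) σ • x = x := by
  classical
  induction hx using Algebra.adjoin_induction with
  | mem y hy => exact ⟨∅, fun σ _ => gal_smul_of_mem_gensRing σ hy⟩
  | algebraMap c => exact ⟨{c}, fun σ h => by rw [gal_smul_algebraMap, h c (by simp)]⟩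
  | add a b _ _ ha hb =>
    obtain ⟨s, hs⟩ := ha
    obtain ⟨t, ht⟩ := hb
    exact ⟨s ∪ t, fun σ h => by
      rw [smul_add, hs σ fun l hl => h l (Finset.mem_union_left _ hl),
        ht σ fun l hl => h l (Finset.mem_union_right _ hl)]⟩
  | mul a b _ _ ha hb =>
    obtain ⟨s, hs⟩ := ha
    obtain ⟨t, ht⟩ := hb
    exact ⟨s ∪ t, fun σ h => by
      rw [smul_mul', hs σ fun l hl => h l (Finset.mem_union_left _ hl),
        ht σ fun l hl => h l (Finset.mem_union_right _ hl)]⟩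

theorem exists_finset_stab (x : modularFunctionFieldBar (M * q)) :
    ∃ s : Finset Qbar, ∀ σ : GalQ, (∀ l ∈ s, σ l = l) → gal (M * q) σ • x = x := by
  classical
  obtain ⟨P, Q, hP, hQ, hQ0, he⟩ := exists_frac (M := M) (q := q) x
  obtain ⟨s, hs⟩ := exists_finset_stab_adjoin hP
  obtain ⟨t, ht⟩ := exists_finset_stab_adjoin hQ
  refine ⟨s ∪ t, fun σ h => mul_right_cancel₀ hQ0 ?_⟩
  conv_lhs => rw [← ht σ fun l hl => h l (Finset.mem_union_right _ hl), ← smul_mul', he,
    hs σ fun l hl => h l (Finset.mem_union_left _ hl)]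
  rw [he]

theorem finite_orbit (l : Qbar) : (Set.range fun σ : GalQ => σ l).Finite := by
  refine ((minpoly ℚ l).rootSet_finite Qbar).subset ?_
  rintro _ ⟨σ, rfl⟩
  rw [Polynomial.mem_rootSet]
  refine ⟨minpoly.ne_zero (Algebra.IsIntegral.isIntegral l), ?_⟩
  show Polynomial.aeval (σ.toAlgHom l) (minpoly ℚ l) = 0
  rw [Polynomial.aeval_algHom_apply, minpoly.aeval, map_zero]

theorem finite_orbit_fun (x : modularFunctionFieldBar (M * q)) :
    (Set.range fun σ : GalQ => gal (M * q) σ • x).Finite := by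
  classical
  obtain ⟨s, hs⟩ := exists_finset_stab x
  let r : GalQ → (s → Qbar) := fun σ l => σ l
  have hfin : (Set.range r).Finite :=
    (Set.Finite.pi' fun l : s => finite_orbit (l : Qbar)).subset fun f ⟨σ, hσ⟩ l =>
      ⟨σ, congrFun hσ l⟩
  let pick : (s → Qbar) → GalQ := fun f => if h : ∃ σ, r σ = f then h.choose else 1
  refine (hfin.image fun f => gal (M * q) (pick f) • x).subset ?_
  rintro _ ⟨σ, rfl⟩
  refine ⟨r σ, ⟨σ, rfl⟩, ?_⟩
  have h : ∃ τ, r τ = r σ := ⟨σ, rfl⟩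
  have hc : r (pick (r σ)) = r σ := by simp only [pick, dif_pos h]; exact h.choose_spec
  have hfix := hs (σ⁻¹ * pick (r σ)) fun l hl => by
    rw [AlgEquiv.mul_apply, show pick (r σ) l = σ l from congrFun hc ⟨l, hl⟩]
    exact σ.symm_apply_apply l
  rw [map_mul, map_inv, mul_smul, inv_smul_eq_iff] at hfix
  exact hfix

/-- The image of a group of automorphisms of `ℚ̄`. -/
def grp (N : ℕ) [NeZero N] (H : Subgroup GalQ) :
    Subgroup (SemilinearAut Qbar (modularFunctionFieldBar N)) :=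
  H.map (gal N)

theorem mem_fixedFun_grp {H : Subgroup GalQ} {x : modularFunctionFieldBar (M * q)} :
    x ∈ fixedFun (grp (M * q) H) ↔ ∀ h ∈ H, gal (M * q) h • x = x := by
  rw [mem_fixedFun]
  exact ⟨fun h σ hσ => h _ ⟨σ, hσ, rfl⟩, by rintro h _ ⟨σ, hσ, rfl⟩; exact h σ hσ⟩

theorem discreteAction_grp (H : Subgroup GalQ) : DiscreteAction (grp (M * q) H) where
  orbit_finite l := by
    refine (finite_orbit l).subset ?_
    rintro _ ⟨⟨_, σ, hσ, rfl⟩, rfl⟩
    exact ⟨σ, by simp only [baseAut_arithmeticGalois]; rfl⟩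
  exists_stab x := by
    obtain ⟨s, hs⟩ := exists_finset_stab x
    refine ⟨s, ?_⟩
    rintro ⟨_, σ, hσ, rfl⟩ h
    refine hs σ fun l hl => ?_
    have := h l hl
    simp only [baseAut_arithmeticGalois] at this
    exact this

/-- A fixed function is a quotient of fixed elements with expansions in bounded coordinates. -/
theorem exists_fixed_frac {H : Subgroup GalQ} {f : modularFunctionFieldBar (M * q)}
    (hf : ∀ h ∈ H, gal (M * q) h • f = f) :
    ∃ P Q : modularFunctionFieldBar (M * q), P ∈ Adj ∧ Q ∈ Adj ∧ Q ≠ 0 ∧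
      (∀ h ∈ H, gal (M * q) h • P = P) ∧ (∀ h ∈ H, gal (M * q) h • Q = Q) ∧ f * Q = P := by
  classical
  obtain ⟨P, Q, hP, hQ, hQ0, he⟩ := exists_frac (M := M) (q := q) f
  have hfin : ((fun σ : GalQ => gal (M * q) σ • Q) '' (H : Set GalQ)).Finite :=
    (finite_orbit_fun Q).subset (Set.image_subset_range _ _)
  set O := hfin.toFinset with hO
  have hmem : ∀ y ∈ O, ∃ σ ∈ H, gal (M * q) σ • Q = y := fun y hy => by
    obtain ⟨σ, hσ, e⟩ := hfin.mem_toFinset.mp hy
    exact ⟨σ, hσ, e⟩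
  have hQO : Q ∈ O := hfin.mem_toFinset.mpr ⟨1, H.one_mem, by simp only [map_one, one_smul]⟩
  set Q' := ∏ y ∈ O, y with hQ'
  have hQ'fix : ∀ h ∈ H, gal (M * q) h • Q' = Q' := by
    intro h hh
    rw [hQ', Finset.smul_prod']
    refine Finset.prod_bij (fun y _ => gal (M * q) h • y) (fun y hy => ?_)
      (fun a _ b _ hab => MulAction.injective _ hab) (fun y hy => ?_) fun y _ => rfl
    · obtain ⟨σ, hσ, rfl⟩ := hmem y hy
      exact hfin.mem_toFinset.mpr ⟨h * σ, mul_mem hh hσ, by simp only [map_mul, mul_smul]⟩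
    · obtain ⟨σ, hσ, rfl⟩ := hmem y hy
      exact ⟨gal (M * q) (h⁻¹ * σ) • Q, hfin.mem_toFinset.mpr
        ⟨_, mul_mem (inv_mem hh) hσ, rfl⟩, by rw [map_mul, map_inv, mul_smul, smul_inv_smul]⟩
  have hQ'mem : ∀ s : Finset (modularFunctionFieldBar (M * q)), s ⊆ O → ∏ y ∈ s, y ∈ Adj :=
    fun s hs => prod_mem fun y hy => by
      obtain ⟨σ, -, rfl⟩ := hmem y (hs hy)
      exact gal_smul_mem_adjoin σ hQ
  refine ⟨f * Q', Q', ?_, hQ'mem O (Finset.Subset.refl _), ?_, fun h hh => ?_, hQ'fix, rfl⟩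
  · rw [hQ', ← Finset.mul_prod_erase O (fun y => y) hQO, ← mul_assoc, he]
    exact mul_mem hP (hQ'mem _ (Finset.erase_subset _ _))
  · refine Finset.prod_ne_zero_iff.mpr fun y hy => ?_
    obtain ⟨σ, -, rfl⟩ := hmem y hy
    exact fun h0 => hQ0 (MulAction.injective _ (h0.trans (smul_zero _).symm))
  · rw [smul_mul', hf h hh, hQ'fix h hh]

section Series

variable {k : Type} [Field k] {A : ValuationSubring Qbar} (π : A →+* k)
variable {H : Subgroup GalQ} {ϖ : Qbar}

/-- A fixed element with bounded coordinates has, after scaling by a power of `ϖ`, a fixed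
integral expansion with nonzero reduction. -/
theorem exists_zpow_scale (hπ : Function.Surjective π) (hϖH : ∀ h ∈ H, h ϖ = ϖ) (hϖ : ϖ ≠ 0)
    (hval : ∀ x : Qbar, x ≠ 0 → (∀ h ∈ H, h x = x) →
      ∃ z : ℤ, A.valuation x = A.valuation ϖ ^ z)
    {P : modularFunctionFieldBar (M * q)} (hP : P ∈ Adj) (hP0 : P ≠ 0)
    (hPfix : ∀ h ∈ H, gal (M * q) h • P = P) :
    ∃ (a : ℤ) (y : LaurentSeries A), Gauss.incl A y = ι₁ M q (ϖ ^ a • P) ∧
      (∀ n, ∀ h ∈ H, h (y.coeff n : Qbar) = y.coeff n) ∧ coeffMap π y ≠ 0 := by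
  classical
  obtain ⟨s, hs, hspan⟩ := Gauss.exists_finset_span (L := Qbar) (T := {P}) (Z := gensRing (M * q))
    (by simp [hP])
  obtain ⟨S, hS⟩ := Gauss.exists_coords (intSeries_ι₁ (M := M) (q := q)) hs
  obtain ⟨c, y, hc, hy, hy0⟩ := Gauss.exists_scale_aux (A := A) (π := π) (ι := ι₁ M q)
    ((map_ne_zero (ι₁ M q)).mpr hP0) fun n => (hS n).imp fun m hm => hm P (hspan P (by simp))
  obtain ⟨n, hn⟩ : ∃ n, π (y.coeff n) ≠ 0 := by
    by_contra! h
    exact hy0 (HahnSeries.ext (funext fun n => by simp [coeffMap_coeff, h n]))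
  have hcoef : ∀ m, (y.coeff m : Qbar) = c * (ι₁ M q P).coeff m := fun m => by
    have := congrArg (fun t : LaurentSeries Qbar => t.coeff m) hy
    simp only [Gauss.incl, coeffMap_coeff, Gauss.coeff_map_smul] at this
    exact this
  have hfix : ∀ m, ∀ h ∈ H, h ((ι₁ M q P).coeff m) = (ι₁ M q P).coeff m := fun m h hh => by
    rw [← coeff_gal_smul, hPfix h hh]
  have hunit : A.valuation (y.coeff n : Qbar) = 1 := by
    refine le_antisymm (A.valuation_le_one _) (not_lt.mp fun hlt => hn ?_)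
    refine Branch.π_eq_zero_of_not_isUnit hπ fun hu => ?_
    exact hlt.ne ((A.valuation_eq_one_iff _).mp hu)
  have hn0 : (ι₁ M q P).coeff n ≠ 0 := fun h0 => by
    rw [hcoef, h0, mul_zero, map_zero] at hunit
    exact zero_ne_one hunit
  obtain ⟨z, hz⟩ := hval _ hn0 (hfix n)
  have hvc : A.valuation (ϖ ^ (-z) / c) = 1 := by
    rw [hcoef, map_mul, hz] at hunit
    rw [map_div₀, map_zpow₀, zpow_neg, ← eq_inv_of_mul_eq_one_left hunit,
      div_self ((Valuation.ne_zero_iff _).mpr hc)]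
  let e : A := ⟨ϖ ^ (-z) / c, (A.valuation_le_one_iff _).mp hvc.le⟩
  refine ⟨-z, HahnSeries.single 0 e * y, ?_, fun m h hh => ?_, ?_⟩
  · rw [Gauss.incl, map_mul, coeffMap_single, ← Gauss.incl, hy]
    ext m
    rw [HahnSeries.coeff_single_zero_mul, Gauss.coeff_map_smul, Gauss.coeff_map_smul,
      show A.subtype e = ϖ ^ (-z) / c from rfl]
    field_simp
  · rw [HahnSeries.coeff_single_zero_mul, MulMemClass.coe_mul, hcoef,
      show ((e : A) : Qbar) = ϖ ^ (-z) / c from rfl, ← mul_assoc, div_mul_cancel₀ _ hc, map_mul,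
      map_zpow₀, hϖH h hh, hfix m h hh]
  · rw [map_mul, coeffMap_single]
    refine mul_ne_zero ?_ hy0
    exact HahnSeries.single_ne_zero (π_ne_zero_of_eq_one (π := π) hvc)

/-- A fixed function has a scale among the powers of `ϖ`, with fixed integral series. -/
theorem exists_fixed_series (hπ : Function.Surjective π) (hϖH : ∀ h ∈ H, h ϖ = ϖ) (hϖ : ϖ ≠ 0)
    (hval : ∀ x : Qbar, x ≠ 0 → (∀ h ∈ H, h x = x) →
      ∃ z : ℤ, A.valuation x = A.valuation ϖ ^ z)
    {f : modularFunctionFieldBar (M * q)} (hf : ∀ h ∈ H, gal (M * q) h • f = f) (hf0 : f ≠ 0) :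
    ∃ (a : ℤ) (y z : LaurentSeries A), coeffMap π y ≠ 0 ∧ coeffMap π z ≠ 0 ∧
      (∀ n, ∀ h ∈ H, h (y.coeff n : Qbar) = y.coeff n) ∧
      (∀ n, ∀ h ∈ H, h (z.coeff n : Qbar) = z.coeff n) ∧
      ι₁ M q (ϖ ^ a • f) * Gauss.incl A z = Gauss.incl A y := by
  obtain ⟨P, Q, hP, hQ, hQ0, hPf, hQf, he⟩ := exists_fixed_frac hf
  obtain ⟨a, y, hy, hyf, hy0⟩ :=
    exists_zpow_scale π hπ hϖH hϖ hval hP (he ▸ mul_ne_zero hf0 hQ0) hPf
  obtain ⟨b, z, hz, hzf, hz0⟩ := exists_zpow_scale π hπ hϖH hϖ hval hQ hQ0 hQf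
  refine ⟨a - b, y, z, hy0, hz0, hyf, hzf, ?_⟩
  rw [hy, hz, ← map_mul, smul_mul_smul_comm, he, ← zpow_add₀ hϖ, sub_add_cancel]

theorem exists_norm_gauss (hπ : Function.Surjective π) (hϖH : ∀ h ∈ H, h ϖ = ϖ) (hϖ : ϖ ≠ 0)
    (hval : ∀ x : Qbar, x ≠ 0 → (∀ h ∈ H, h x = x) →
      ∃ z : ℤ, A.valuation x = A.valuation ϖ ^ z)
    {f : modularFunctionFieldBar (M * q)} (hf : ∀ h ∈ H, gal (M * q) h • f = f) (hf0 : f ≠ 0) :
    ∃ (a : ℤ) (h : ϖ ^ a • f ∈ Gauss.ring A π (ι₁ M q)),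
      Gauss.res A π (ι₁ M q) ⟨_, h⟩ ≠ 0 := by
  obtain ⟨a, y, z, hy, hz, -, -, he⟩ := exists_fixed_series π hπ hϖH hϖ hval hf hf0
  exact ⟨a, ⟨y, z, hz, he⟩, fun h0 =>
    div_ne_zero hy hz ((Gauss.res_mk A π (ι₁ M q) _ hz he).symm.trans h0)⟩

variable {σ : GalQ} {tt : A}

/-- An automorphism that moves fixed integral constants by multiples of `tt` with zero residue does
the same to fixed integral functions. -/
theorem exists_dev_gauss (hπ : Function.Surjective π) (hϖH : ∀ h ∈ H, h ϖ = ϖ) (hϖ : ϖ ≠ 0)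
    (hϖlt : A.valuation ϖ < 1)
    (hval : ∀ x : Qbar, x ≠ 0 → (∀ h ∈ H, h x = x) →
      ∃ z : ℤ, A.valuation x = A.valuation ϖ ^ z)
    (hσ : ∀ a ∈ A, σ a ∈ A) (hσπ : ∀ a : A, π ⟨σ a, hσ a a.2⟩ = π a) (htt : tt ≠ 0)
    (hdev : ∀ a : A, (∀ h ∈ H, h (a : Qbar) = a) →
      ∃ r : A, π r = 0 ∧ σ (a : Qbar) - a = tt * r)
    {f : modularFunctionFieldBar (M * q)} (hf : ∀ h ∈ H, gal (M * q) h • f = f)
    (hmem : f ∈ Gauss.ring A π (ι₁ M q)) :
    ∃ (r : modularFunctionFieldBar (M * q)) (hr : r ∈ Gauss.ring A π (ι₁ M q)),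
      Gauss.res A π (ι₁ M q) ⟨r, hr⟩ = 0 ∧
        gal (M * q) σ • f - f = algebraMap Qbar _ (tt : Qbar) * r := by
  rcases eq_or_ne f 0 with rfl | hf0
  · exact ⟨0, Subring.zero_mem _, map_zero _, by rw [smul_zero, sub_zero, mul_zero]⟩
  obtain ⟨a, y, z, hy, hz, hyf, hzf, he⟩ := exists_fixed_series π hπ hϖH hϖ hval hf hf0
  obtain ⟨y', z', hz', he'⟩ := hmem
  have hsmul : ι₁ M q (ϖ ^ a • f) = HahnSeries.single 0 (ϖ ^ a) * ι₁ M q f := by
    rw [Algebra.smul_def, map_mul, AlgHom.commutes, algebraMap_laurentSeries_eq_single]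
  rw [hsmul] at he
  -- the scale is integral
  have ha : a ≤ 0 := by
    by_contra hlt
    obtain ⟨m, hm⟩ : ∃ m : ℕ, a = (m + 1 : ℕ) := ⟨a.toNat - 1, by omega⟩
    have hϖA : ϖ ∈ A := (A.valuation_le_one_iff _).mp hϖlt.le
    have h0 : π ⟨ϖ, hϖA⟩ = 0 :=
      Branch.π_eq_zero_of_not_isUnit hπ fun hu => hϖlt.ne ((A.valuation_eq_one_iff _).mp hu)
    have hid : HahnSeries.single 0 ((⟨ϖ, hϖA⟩ : A) ^ (m + 1)) * y' * z = z' * y := by
      refine Gauss.incl_injective A ?_
      simp only [Gauss.incl, map_mul, coeffMap_single]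
      rw [← Gauss.incl, ← he, ← he', map_pow,
        show A.subtype (⟨ϖ, hϖA⟩ : A) = ϖ from rfl, hm, zpow_natCast]
      ring
    have h1 := congrArg (coeffMap π) hid
    rw [map_mul, map_mul, map_mul, coeffMap_single, map_pow, h0, zero_pow (Nat.succ_ne_zero m),
      map_zero, zero_mul, zero_mul] at h1
    exact mul_ne_zero hz' hy h1.symm
  obtain ⟨m, rfl⟩ : ∃ m : ℕ, a = -(m : ℤ) := ⟨(-a).toNat, by omega⟩
  have hϖA : ϖ ∈ A := (A.valuation_le_one_iff _).mp hϖlt.le
  set Y := HahnSeries.single 0 ((⟨ϖ, hϖA⟩ : A) ^ m) * y with hY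
  have hYe : ι₁ M q f * Gauss.incl A z = Gauss.incl A Y := by
    rw [hY, Gauss.incl, map_mul, coeffMap_single, ← Gauss.incl, ← he, map_pow,
      show A.subtype (⟨ϖ, hϖA⟩ : A) = ϖ from rfl, ← mul_assoc, ← mul_assoc,
      HahnSeries.single_mul_single, add_zero, ← zpow_natCast, ← zpow_add₀ hϖ, add_neg_cancel,
      zpow_zero]
    simp
  have hYf : ∀ n, ∀ h ∈ H, h (Y.coeff n : Qbar) = Y.coeff n := fun n h hh => by
    rw [hY, HahnSeries.coeff_single_zero_mul, MulMemClass.coe_mul, SubmonoidClass.coe_pow, map_mul,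
      map_pow, hϖH h hh, hyf n h hh]
  -- deviations of the coefficients
  choose R hR0 hR using hdev
  let dev : ∀ (t : LaurentSeries A), (∀ n, ∀ h ∈ H, h (t.coeff n : Qbar) = t.coeff n) →
      LaurentSeries A := fun t ht =>
    ⟨fun n => R (t.coeff n) (ht n), t.isPWO_support.mono fun n hn h0 => hn (by
      have h1 := hR (t.coeff n) (ht n)
      have h2 : (tt : Qbar) * (R (t.coeff n) (ht n) : Qbar) = 0 := by rw [← h1]; simp [h0]
      exact Subtype.ext ((mul_eq_zero.mp h2).resolve_left fun h2 => htt (Subtype.ext h2)))⟩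
  set τ : A →+* A :=
    ((σ : Qbar →+* Qbar).comp A.subtype).codRestrict A.toSubring fun a => hσ a a.2
  have hτ : ∀ t ht, Gauss.incl A (coeffMap τ t) =
      Gauss.incl A t + HahnSeries.single 0 (tt : Qbar) * Gauss.incl A (dev t ht) := fun t ht => by
    ext n
    rw [HahnSeries.coeff_add, HahnSeries.coeff_single_zero_mul]
    show σ (t.coeff n : Qbar) = (t.coeff n : Qbar) + (tt : Qbar) * (R (t.coeff n) (ht n) : Qbar)
    rw [← hR (t.coeff n) (ht n), add_sub_cancel]
  have hτf : ι₁ M q (gal (M * q) σ • f) * Gauss.incl A (coeffMap τ z) =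
      Gauss.incl A (coeffMap τ Y) := by
    have hincl : ∀ t : LaurentSeries A,
        Gauss.incl A (coeffMap τ t) = coeffMap (σ : Qbar →+* Qbar) (Gauss.incl A t) := fun t => by
      rw [Gauss.incl, coeffMap_coeffMap, coeffMap_coeffMap]
      exact coeffMap_congr (RingHom.ext fun a => rfl) t
    rw [hincl, hincl, ι₁_gal_smul, ← map_mul, hYe]
  have hτπ : coeffMap π (coeffMap τ z) = coeffMap π z := by
    rw [coeffMap_coeffMap]
    exact coeffMap_congr (RingHom.ext fun a => hσπ a) z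
  have hdev0 : ∀ t ht, coeffMap π (dev t ht) = 0 := fun t ht =>
    HahnSeries.ext (funext fun n => hR0 _ _)
  set U := dev Y hYf * z - Y * dev z hzf with hU
  have httQ : (tt : Qbar) ≠ 0 := fun h => htt (Subtype.ext h)
  set r := (tt : Qbar)⁻¹ • (gal (M * q) σ • f - f) with hr
  have hre : ι₁ M q r * Gauss.incl A (coeffMap τ z * z) = Gauss.incl A U := by
    have h1 : (ι₁ M q (gal (M * q) σ • f) - ι₁ M q f) *
        (Gauss.incl A (coeffMap τ z) * Gauss.incl A z) =
        HahnSeries.single 0 (tt : Qbar) * Gauss.incl A U := by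
      rw [hU, map_sub, map_mul, map_mul, sub_mul, ← mul_assoc, hτf, hτ Y hYf,
        show ι₁ M q f * (Gauss.incl A (coeffMap τ z) * Gauss.incl A z) =
          Gauss.incl A (coeffMap τ z) * (ι₁ M q f * Gauss.incl A z) by ring, hYe, hτ z hzf]
      ring
    rw [hr, Algebra.smul_def, map_mul, AlgHom.commutes, algebraMap_laurentSeries_eq_single,
      map_sub, map_mul, mul_assoc, h1, ← mul_assoc, HahnSeries.single_mul_single, add_zero,
      inv_mul_cancel₀ httQ]
    simp
  have hzz : coeffMap π (coeffMap τ z * z) ≠ 0 := by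
    rw [map_mul, hτπ]; exact mul_ne_zero hz hz
  refine ⟨r, ⟨U, _, hzz, hre⟩, ?_, ?_⟩
  · refine (Gauss.res_mk A π (ι₁ M q) _ hzz hre).trans ?_
    rw [hU, map_sub, map_mul, map_mul, hdev0, hdev0,
      zero_mul, mul_zero, sub_zero, zero_div]
  · rw [hr, ← Algebra.smul_def, smul_smul, mul_inv_cancel₀ httQ, one_smul]

end Series

end FLTAgent.SemistableWild

end
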