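import Fermat.Agent.SemistableWild.Kummer
import Fermat.Agent.SemistableWild.RationalSeries
import Fermat.Agent.SemistableNodes.Deviation
import Fermat.Agent.SemistableEisenstein.NodeUnitX0

/-!
# The wild setting of `X₀(Mp)` at `p`

From `KummerData`: the rational functions over its field (`ratForm`), the inertia automorphism
moving the root as a morphism of the pair reduction, and its deviation at the first level
(`deviation`).
-/

set_option autoImplicit false

noncomputable section

open AlgebraicCurve ModularCurve FLTAgent.Semistable FLTAgent.Semistable.Level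
open FLTAgent.HeckeJacobian FLTAgent.FFBasic FLTAgent.Deuring

namespace FLTAgent.SemistableWild

open FLTAgent.Density (GalQ)

local notation "Qbar" => AlgebraicClosure ℚ

variable {M p : ℕ} [NeZero M] [Fact p.Prime] {A : ValuationSubring (AlgebraicClosure ℚ)}
  {ζ u : AlgebraicClosure ℚ}

namespace KummerData

variable (D : KummerData A p ζ u)

/-- The group cutting out the rational functions. -/
def group (M : ℕ) [NeZero M] : Subgroup (SemilinearAut Qbar (modularFunctionFieldBar (M * p))) :=
  grp (M * p) D.H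

theorem discreteAction : DiscreteAction (D.group M) := discreteAction_grp D.H

omit [Fact (Nat.Prime p)] in
theorem valuation_ϖ_lt (hA : A.LiesOverPrime p) : A.valuation D.ϖ < 1 := by
  by_contra h
  exact (valuation_natCast_lt hA).not_ge (D.ϖ_pow ▸ one_le_pow_of_one_le' (not_lt.mp h) _)

/-- Classes fixed by the inertia elements fixing `ζ` and the roots of `u` are fixed by the group. -/
theorem smul_eq_of_fixed {x : JZero (M * p)}
    (hx : ∀ σ ∈ A.inertiaSubgroupIn ℚ, σ ζ = ζ → (∀ w : Qbar, w ^ p = u → σ w = w) → σ • x = x) :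
    ∀ g ∈ D.group M, g • x = x := by
  rintro _ ⟨σ, hσ, rfl⟩
  exact hx σ (D.H_le hσ) (D.H_ζ σ hσ) (D.H_root σ hσ)

/-- The group fixes the polar divisor of `j`. -/
theorem group_smul_pol (g : SemilinearAut Qbar (modularFunctionFieldBar (M * p)))
    (hg : g ∈ D.group M) : g • pol (K := Qbar) (jA M p) = pol (K := Qbar) (jA M p) := by
  obtain ⟨σ, -, rfl⟩ := hg
  exact galois_smul_pol_jA M p σ

variable [IsAlgClosed (IsLocalRing.ResidueField A)] [CharP (IsLocalRing.ResidueField A) p]
variable [IsFunctionField (IsLocalRing.ResidueField A)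
  (modularFunctionFieldFullC (IsLocalRing.ResidueField A) M)]
variable (S : Semistable.Level.Setting M p A (IsLocalRing.residue A))
  (hk : (hbar S : LaurentSeries (IsLocalRing.ResidueField A)) ∈
    IntermediateField.adjoin (IsLocalRing.ResidueField A) {jqModC (IsLocalRing.ResidueField A)})

omit [IsAlgClosed (IsLocalRing.ResidueField A)] [CharP (IsLocalRing.ResidueField A) p]
  [IsFunctionField (IsLocalRing.ResidueField A)
    (modularFunctionFieldFullC (IsLocalRing.ResidueField A) M)] in
theorem al_fixed {w : modularFunctionFieldBar (M * p)}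
    (hw : ∀ h ∈ D.H, gal (M * p) h • w = w) :
    ∀ h ∈ D.H, gal (M * p) h • S.al.w w = S.al.w w := fun h hh => by
  rw [← MazurStep.w_smul, hw h hh]

omit [IsAlgClosed (IsLocalRing.ResidueField A)] [CharP (IsLocalRing.ResidueField A) p]
  [IsFunctionField (IsLocalRing.ResidueField A)
    (modularFunctionFieldFullC (IsLocalRing.ResidueField A) M)] in
theorem al_smul_const (c : Qbar) (x : modularFunctionFieldBar (M * p)) :
    S.al.w (c • x) = c • S.al.w x := by
  rw [Algebra.smul_def, map_mul, AlgHom.commutes, ← Algebra.smul_def]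

/-- The functions over the field cut out by the data. -/
def ratForm (hA : A.LiesOverPrime p) : PairReduction.RatForm (pairReduction S hk) where
  K := (IntermediateField.fixedField D.H).toSubfield
  ϖ := D.ϖ
  ϖ_mem := (IntermediateField.mem_fixedField_iff _ _).mpr D.H_ϖ
  ϖ_ne := D.ϖ_ne
  ϖ_lt := D.valuation_ϖ_lt hA
  S := fixedFun (D.group M)
  smul_mem c hc w hw := by
    refine smul_mem_fixedFun _ ?_ hw
    rintro _ ⟨σ, hσ, rfl⟩
    rw [baseAut_arithmeticGalois]
    exact (IntermediateField.mem_fixedField_iff _ _).mp hc σ hσ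
  exists_norm₁ w hw hw0 := by
    obtain ⟨z, h, hne⟩ := exists_norm_gauss (IsLocalRing.residue A) S.surj D.H_ϖ D.ϖ_ne
      D.val_fixed (mem_fixedFun_grp.mp hw) hw0
    refine ⟨z, h, fun h0 => hne ?_⟩
    replace h0 : (branch₁ S).red (D.ϖ ^ z) w = 0 := h0
    rw [Branch.red_eq _ (show (branch₁ S).Mem (D.ϖ ^ z) w from h)] at h0
    exact (coe_res₁ S h).symm.trans (congrArg Subtype.val h0)
  exists_norm₂ w hw hw0 := by
    obtain ⟨z, h, hne⟩ := exists_norm_gauss (IsLocalRing.residue A) S.surj D.H_ϖ D.ϖ_ne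
      D.val_fixed (D.al_fixed S (mem_fixedFun_grp.mp hw)) (fun h0 => hw0 (by
        rw [← w_w S.al w, h0, map_zero]))
    have h' : D.ϖ ^ z • w ∈ Gauss.ring A (IsLocalRing.residue A) (ι₂ S.al) :=
      (mem_ring₂_iff _ S.al _).mpr (by rw [al_smul_const]; exact h)
    refine ⟨z, h', fun h0 => hne ?_⟩
    replace h0 : (branch₂ S).red (D.ϖ ^ z) w = 0 := h0
    rw [Branch.red_eq _ (show (branch₂ S).Mem (D.ϖ ^ z) w from h')] at h0
    refine Eq.trans ?_ (((res₂_eq _ S.al h').symm.trans (coe_res₂ S h').symm).trans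
      (congrArg Subtype.val h0))
    exact congrArg _ (Subtype.ext (al_smul_const S _ w).symm)
  exists_res c := by
    obtain ⟨a, ha, hac⟩ := exists_fixed_residue hA c
    exact ⟨a, (IntermediateField.mem_fixedField_iff _ _).mpr fun h hh => ha h (D.H_le hh), hac⟩

/-- The automorphism moving the root, on the pair reduction. -/
def morph : PairReduction.Morph (pairReduction S hk) (pairReduction S hk) :=
  galoisMorph (hσ := fun _ => MazurStep.inertia_mem D.σ_mem) (τ := RingEquiv.refl _) S hk
    (MazurStep.residue_inertia D.σ_mem)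

/-- The level of the deviation. -/
def level (hA : A.LiesOverPrime p) : A :=
  ⟨D.σ D.ϖ / D.ϖ - 1,
    (A.valuation_le_one_iff _).mp (D.tt_val.trans_lt (D.valuation_ϖ_lt hA)).le⟩

omit [Fact p.Prime] [IsAlgClosed (IsLocalRing.ResidueField A)]
  [CharP (IsLocalRing.ResidueField A) p] in
theorem exists_dev_const (hA : A.LiesOverPrime p) (a : A) (ha : ∀ h ∈ D.H, h (a : Qbar) = a) :
    ∃ r : A, IsLocalRing.residue A r = 0 ∧
      D.σ (a : Qbar) - a = (D.level hA : Qbar) * r := by
  have htt : A.valuation (D.level hA : Qbar) = A.valuation D.ϖ := D.tt_val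
  have hne : (D.level hA : Qbar) ≠ 0 := fun h0 => by
    rw [h0, map_zero] at htt
    exact D.ϖ_ne ((map_eq_zero A.valuation).mp htt.symm)
  have hlt : A.valuation ((D.σ (a : Qbar) - a) / (D.level hA : Qbar)) < 1 := by
    rw [map_div₀, htt,
      div_lt_one₀ (zero_lt_iff.mpr ((Valuation.ne_zero_iff A.valuation).mpr D.ϖ_ne))]
    exact D.dev_fixed _ ha (A.valuation_le_one a)
  refine ⟨⟨_, (A.valuation_le_one_iff _).mp hlt.le⟩, ?_, (mul_div_cancel₀ _ hne).symm⟩
  rw [IsLocalRing.residue_eq_zero_iff, ← ValuationSubring.coe_mem_nonunits_iff,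
    ValuationSubring.mem_nonunits_iff]
  exact hlt

omit [Fact p.Prime] [IsAlgClosed (IsLocalRing.ResidueField A)]
  [CharP (IsLocalRing.ResidueField A) p] in
theorem level_ne_zero (hA : A.LiesOverPrime p) : D.level hA ≠ 0 := fun h => by
  have h1 := D.tt_val
  rw [show D.σ D.ϖ / D.ϖ - 1 = ((D.level hA : A) : Qbar) from rfl, h, ZeroMemClass.coe_zero,
    map_zero] at h1
  exact D.ϖ_ne ((map_eq_zero A.valuation).mp h1.symm)

/-- The deviation of the automorphism at the first level. -/
def deviation (hA : A.LiesOverPrime p) :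
    PairReduction.Deviation (D.morph S hk) (D.ratForm S hk hA) where
  tt := D.level hA
  tt_ne := D.level_ne_zero hA
  π_tt := by
    rw [IsLocalRing.residue_eq_zero_iff, ← ValuationSubring.coe_mem_nonunits_iff,
      ValuationSubring.mem_nonunits_iff]
    exact D.tt_val.trans_lt (D.valuation_ϖ_lt hA)
  η := 1
  π_η := by rw [map_one]; exact one_ne_zero
  map_ϖ := by
    show D.σ D.ϖ = D.ϖ * (1 + (D.σ D.ϖ / D.ϖ - 1) * ((1 : A) : Qbar))
    have := D.ϖ_ne
    push_cast
    field_simp
    ring
  dev₁ w hw hm := by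
    have hmem : w ∈ Gauss.ring A (IsLocalRing.residue A) (ι₁ M p) := one_smul Qbar w ▸ hm
    obtain ⟨r, hr, hr0, he⟩ := exists_dev_gauss (IsLocalRing.residue A) S.surj D.H_ϖ D.ϖ_ne
      (D.valuation_ϖ_lt hA) D.val_fixed (fun a => MazurStep.inertia_mem D.σ_mem)
      (MazurStep.residue_inertia D.σ_mem) (D.level_ne_zero hA) (D.exists_dev_const hA)
      (mem_fixedFun_grp.mp hw) hmem
    have hr' : r ∈ (branch₁ S).O := hr
    refine ⟨r, (show (branch₁ S).Mem 1 r by unfold Branch.Mem; rw [one_smul]; exact hr'), ?_, he⟩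
    exact ((branch₁ S).red_one hr').trans (Subtype.ext ((coe_res₁ S hr').trans hr0))
  dev₂ w hw hm := by
    have hmem : S.al.w w ∈ Gauss.ring A (IsLocalRing.residue A) (ι₁ M p) :=
      (mem_ring₂_iff _ S.al w).mp (one_smul Qbar w ▸ hm)
    obtain ⟨r, hr, hr0, he⟩ := exists_dev_gauss (IsLocalRing.residue A) S.surj D.H_ϖ D.ϖ_ne
      (D.valuation_ϖ_lt hA) D.val_fixed (fun a => MazurStep.inertia_mem D.σ_mem)
      (MazurStep.residue_inertia D.σ_mem) (D.level_ne_zero hA) (D.exists_dev_const hA)
      (D.al_fixed S (mem_fixedFun_grp.mp hw)) hmem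
    have hr₂ : S.al.w r ∈ Gauss.ring A (IsLocalRing.residue A) (ι₂ S.al) :=
      (mem_ring₂_iff _ S.al _).mpr (by rw [w_w]; exact hr)
    have hr' : S.al.w r ∈ (branch₂ S).O := hr₂
    refine ⟨S.al.w r,
      (show (branch₂ S).Mem 1 (S.al.w r) by unfold Branch.Mem; rw [one_smul]; exact hr'), ?_, ?_⟩
    · refine ((branch₂ S).red_one hr').trans (Subtype.ext ((coe_res₂ S hr').trans
        ((res₂_eq _ S.al hr₂).trans (Eq.trans ?_ hr0))))
      exact congrArg _ (Subtype.ext (w_w S.al r))
    · have := congrArg S.al.w he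
      rwa [map_sub, map_mul, AlgHom.commutes, MazurStep.w_smul, w_w] at this
  map_E := galoisMorph_map_E S hk _

variable [IsFunctionField Qbar (modularFunctionFieldBar (M * p))]

/-- The values: `Q = p ^ 12` is `ϖ` to the power `12 p (p - 1)`. -/
theorem valuation_Q (hA : A.LiesOverPrime p) :
    A.valuation ((D.ratForm S hk hA).ϖ ^ ((p : ℤ) * ((12 * (p - 1) : ℕ) : ℤ))) =
      A.valuation (Eisenstein.nodeUnit S hk).Q := by
  show A.valuation (D.ϖ ^ _) = A.valuation ((p : Qbar) ^ 12)
  rw [map_zpow₀, map_pow, ← D.ϖ_pow, ← pow_mul, ← zpow_natCast]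
  congr 1
  push_cast
  ring

end KummerData

/-- The exponent is prime to `p`. -/
theorem isUnit_exponent (hp5 : 5 ≤ p) : IsUnit (((12 * (p - 1) : ℕ) : ℤ) : ZMod p) := by
  rw [Int.cast_natCast, ZMod.isUnit_iff_coprime]
  refine Nat.Coprime.symm ((Fact.out : p.Prime).coprime_iff_not_dvd.mpr fun h => ?_)
  rcases (Fact.out : p.Prime).dvd_mul.mp h with h1 | h1
  · rcases (Fact.out : p.Prime).dvd_mul.mp (show p ∣ 3 * 4 from h1) with h2 | h2 <;>
    · have := Nat.le_of_dvd (by norm_num) h2
      omega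
  · have := Nat.le_of_dvd (by omega) h1
    omega

end FLTAgent.SemistableWild

end
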