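import Fermat.Agent.LocalThree.TameValues
import Fermat.Agent.MazurStep.Rigid
import Mathlib.FieldTheory.Galois.Infinite
import Mathlib.FieldTheory.Finite.Basic

/-!
# The inertia field of a place of `ℚ̄`

`qnr A` is the field fixed by inertia: its values are those of `ℚ`
(`LocalThree.exists_val_zpow`), its residues fill the residue field (`exists_fixed_residue`), and
elements fixed by the inertia elements fixing a given set lie in the algebra it generates with
that set (`mem_adjoin_of_fixed`).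
-/

set_option autoImplicit false

noncomputable section

open scoped Pointwise
open Polynomial

namespace FLTAgent.SemistableWild

open FLTAgent.Density

variable {A : ValuationSubring Qbar} {p : ℕ}

theorem charP_residue [Fact p.Prime] (hA : A.LiesOverPrime p) :
    CharP (IsLocalRing.ResidueField A) p := by
  refine (CharP.charP_iff_prime_eq_zero Fact.out).2 ?_
  obtain ⟨hm, hu⟩ := (ValuationSubring.mem_nonunits_iff_exists_mem_maximalIdeal (A := A)
    (a := (p : Qbar))).mp hA
  rw [← map_natCast (IsLocalRing.residue A), IsLocalRing.residue_eq_zero_iff]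
  exact hu

/-- Nonzero residues have finite order prime to `p`. -/
theorem exists_pow_eq_one [Fact p.Prime] (hA : A.LiesOverPrime p)
    {c : IsLocalRing.ResidueField A} (hc : c ≠ 0) :
    ∃ n : ℕ, ¬ p ∣ n ∧ c ^ n = 1 := by
  have := charP_residue hA
  let : Algebra (ZMod p) (IsLocalRing.ResidueField A) := ZMod.algebra _ p
  obtain ⟨a, rfl⟩ := IsLocalRing.residue_surjective c
  have halg : IsAlgebraic ℤ (a : Qbar) :=
    (IsFractionRing.isAlgebraic_iff ℤ ℚ Qbar).mpr (Algebra.IsAlgebraic.isAlgebraic _)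
  obtain ⟨f, hf0, hf⟩ := halg
  have hf' : aeval (a : Qbar) f.primPart = 0 := aeval_primPart_eq_zero hf0 hf
  have hA' : eval₂ (Int.castRingHom A) a f.primPart = 0 := by
    apply Subtype.val_injective
    show A.subtype _ = _
    rw [hom_eval₂]
    rw [aeval_def] at hf'
    rw [RingHom.ext_int (A.subtype.comp (Int.castRingHom A)) (algebraMap ℤ Qbar)]
    exact hf'
  have hint : IsIntegral (ZMod p) (IsLocalRing.residue A a) := by
    refine IsAlgebraic.isIntegral ⟨f.primPart.map (Int.castRingHom (ZMod p)), fun h0 => ?_, ?_⟩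
    · have hdvd : ∀ n, (p : ℤ) ∣ f.primPart.coeff n := fun n => by
        have := congrArg (fun g => g.coeff n) h0
        simpa [coeff_map, ZMod.intCast_zmod_eq_zero_iff_dvd] using this
      have := (isPrimitive_primPart f) (p : ℤ) (C_dvd_iff_dvd_coeff _ _ |>.mpr hdvd)
      rw [Int.isUnit_iff] at this
      have := (Fact.out : p.Prime).two_le
      omega
    · have h := congrArg (IsLocalRing.residue A) hA'
      rw [hom_eval₂, map_zero] at h
      rw [aeval_def, eval₂_map, RingHom.ext_int ((algebraMap (ZMod p) _).comp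
        (Int.castRingHom (ZMod p))) ((IsLocalRing.residue A).comp (Int.castRingHom A))]
      exact h
  let E := IntermediateField.adjoin (ZMod p) {IsLocalRing.residue A a}
  have : FiniteDimensional (ZMod p) E := IntermediateField.adjoin.finiteDimensional hint
  have : Finite E := Module.finite_of_finite (ZMod p)
  have : Fintype E := Fintype.ofFinite E
  let e : E := ⟨IsLocalRing.residue A a, IntermediateField.mem_adjoin_simple_self _ _⟩
  have he : e ≠ 0 := fun h => hc (congrArg Subtype.val h)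
  refine ⟨Fintype.card E - 1, fun hd => ?_, congrArg Subtype.val
    (FiniteField.pow_card_sub_one_eq_one e he :)⟩
  obtain ⟨n, hn, hcard⟩ := FiniteField.card E p
  have h1 : p ∣ Fintype.card E := hcard ▸ dvd_pow_self p (PNat.ne_zero n)
  have h2 := Nat.dvd_sub h1 hd
  rw [Nat.sub_sub_self Fintype.card_pos] at h2
  exact (Fact.out : p.Prime).one_lt.ne' (Nat.dvd_one.mp h2)

/-- Every residue lifts to an element fixed by inertia. -/
theorem exists_fixed_residue [Fact p.Prime] (hA : A.LiesOverPrime p)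
    (c : IsLocalRing.ResidueField A) :
    ∃ a : A, (∀ σ ∈ A.inertiaSubgroupIn ℚ, σ (a : Qbar) = a) ∧ IsLocalRing.residue A a = c := by
  rcases eq_or_ne c 0 with rfl | hc
  · exact ⟨0, fun σ _ => map_zero σ, map_zero _⟩
  obtain ⟨n, hn, hcn⟩ := exists_pow_eq_one hA hc
  have hn0 : n ≠ 0 := fun h => hn (h ▸ dvd_zero p)
  obtain ⟨ζ, hζ⟩ : ∃ ζ : Qbar, IsPrimitiveRoot ζ n := by
    have : NeZero (n : Qbar) := ⟨Nat.cast_ne_zero.mpr hn0⟩
    obtain ⟨ζ, hζ⟩ := IsAlgClosed.exists_root (Polynomial.cyclotomic n Qbar)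
      (Polynomial.degree_cyclotomic_pos n Qbar (Nat.pos_of_ne_zero hn0)).ne'
    exact ⟨ζ, Polynomial.isRoot_cyclotomic_iff.1 hζ⟩
  have hζA : ζ ∈ A := mem_of_isIntegral A (hζ.isIntegral (Nat.pos_of_ne_zero hn0))
  have hζ' : IsPrimitiveRoot (⟨ζ, hζA⟩ : A) n :=
    IsPrimitiveRoot.of_map_of_injective (f := A.subtype) hζ Subtype.val_injective
  have hfac := X_pow_sub_one_eq_prod (Nat.pos_of_ne_zero hn0) hζ'
  have h := congrArg (eval₂ (IsLocalRing.residue A) c) hfac
  rw [eval₂_sub, eval₂_X_pow, eval₂_one, hcn, sub_self, eval₂_finsetProd] at h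
  obtain ⟨a, ha, ha'⟩ := Finset.prod_eq_zero_iff.mp h.symm
  rw [eval₂_sub, eval₂_X, eval₂_C, sub_eq_zero] at ha'
  refine ⟨a, fun σ hσ => MazurStep.inertia_fixes_root_of_unity Fact.out hn hA hσ ?_, ha'.symm⟩
  rw [← SubmonoidClass.coe_pow, (mem_nthRootsFinset (Nat.pos_of_ne_zero hn0) 1).mp ha]
  rfl

/-- Conditions on the image of one element are closed. -/
theorem isClosed_setOf_apply (a : Qbar) (P : Qbar → Prop) : IsClosed {σ : GalQ | P (σ a)} := by
  rw [← isOpen_compl_iff, isOpen_iff_forall_mem_open]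
  intro σ hσ
  refine ⟨(fun g => σ * g) '' (MulAction.stabilizer GalQ a : Set GalQ), ?_,
    isOpenMap_mul_left σ _ (stabilizer_isOpen_of_isIntegral (K := ℚ) a),
    ⟨1, one_mem _, mul_one σ⟩⟩
  rintro _ ⟨g, hg, rfl⟩
  show ¬ P ((σ * g) a)
  rw [AlgEquiv.mul_apply, show g a = a from MulAction.mem_stabilizer_iff.mp hg]
  exact hσ

theorem isClosed_inertia (A : ValuationSubring Qbar) :
    IsClosed (A.inertiaSubgroupIn ℚ : Set GalQ) := by
  have he : (A.inertiaSubgroupIn ℚ : Set GalQ) =
      ⋂ a : Qbar, {σ : GalQ | (σ a ∈ A ↔ a ∈ A) ∧ (a ∈ A → σ a - a ∈ A.nonunits)} := by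
    ext σ
    simp only [SetLike.mem_coe, Set.mem_iInter, Set.mem_ofPred_eq, mem_inertiaSubgroupIn_iff]
    refine ⟨fun h a => ⟨apply_mem_iff h.1 a, h.2 a⟩, fun h => ⟨?_, fun a ha => (h a).2 ha⟩⟩
    refine MulAction.mem_stabilizer_iff.mpr (SetLike.ext fun y => ?_)
    obtain ⟨x, rfl⟩ := σ.surjective y
    rw [smul_apply_mem_iff]
    exact (h x).1.symm
  rw [he]
  exact isClosed_iInter fun a =>
    isClosed_setOf_apply a fun y => (y ∈ A ↔ a ∈ A) ∧ (a ∈ A → y - a ∈ A.nonunits)

/-- The field fixed by inertia. -/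
def qnr (A : ValuationSubring Qbar) : IntermediateField ℚ Qbar :=
  IntermediateField.fixedField (A.inertiaSubgroupIn ℚ)

theorem mem_qnr {x : Qbar} : x ∈ qnr A ↔ ∀ σ ∈ A.inertiaSubgroupIn ℚ, σ x = x :=
  IntermediateField.mem_fixedField_iff _ _

/-- An element fixed by the inertia elements fixing `s` is a polynomial in `s` over the inertia
field. -/
theorem mem_adjoin_of_fixed (s : Set Qbar) {x : Qbar}
    (h : ∀ σ ∈ A.inertiaSubgroupIn ℚ, (∀ y ∈ s, σ y = y) → σ x = x) :
    x ∈ Algebra.adjoin ℚ ((qnr A : Set Qbar) ∪ s) := by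
  let E := qnr A ⊔ IntermediateField.adjoin ℚ s
  have hx : x ∈ E := by
    rw [← InfiniteGalois.fixedField_fixingSubgroup E, IntermediateField.mem_fixedField_iff]
    intro σ hσ
    refine h σ ?_ fun y hy => hσ ⟨y, le_sup_right (α := IntermediateField ℚ Qbar)
      (IntermediateField.subset_adjoin ℚ s hy)⟩
    have hI : (qnr A).fixingSubgroup = A.inertiaSubgroupIn ℚ :=
      InfiniteGalois.fixingSubgroup_fixedField ⟨A.inertiaSubgroupIn ℚ, isClosed_inertia A⟩
    rw [← hI]
    exact IntermediateField.fixingSubgroup_le le_sup_left hσ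
  have hx' : x ∈ E.toSubalgebra := hx
  rw [IntermediateField.sup_toSubalgebra_of_isAlgebraic (qnr A) _
      (Or.inl (Algebra.IsAlgebraic.tower_bot ℚ (qnr A) Qbar)),
    IntermediateField.adjoin_toSubalgebra_of_isAlgebraic fun y _ =>
      Algebra.IsAlgebraic.isAlgebraic y] at hx'
  rw [Algebra.adjoin_union]
  have hle : (qnr A).toSubalgebra ≤ Algebra.adjoin ℚ (qnr A : Set Qbar) :=
    fun y hy => Algebra.subset_adjoin hy
  exact sup_le_sup_right hle (Algebra.adjoin ℚ s) hx'

end FLTAgent.SemistableWild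

end
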