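import Fermat.Agent.SemistableWild.InertiaField
import Mathlib.RingTheory.Polynomial.Cyclotomic.Eval
import Mathlib.RingTheory.Polynomial.Cyclotomic.Roots

/-!
# A wildly ramified Kummer extension of the inertia field

For `ζ_p` and a `p`-th root of a unit over the inertia field, `nonempty_kummerData` gives
`KummerData`: the values of the extension and an automorphism that moves a generator of the values
exactly at the first level and every integral element strictly beyond it.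
-/

set_option autoImplicit false

noncomputable section

open scoped Pointwise
open Polynomial

namespace FLTAgent.SemistableWild

open FLTAgent.Density

variable (A : ValuationSubring Qbar) (p : ℕ)

/-- The wild data at `A` attached to a unit `u` and a primitive root of unity `ζ`. -/
structure KummerData (ζ u : Qbar) where
  /-- The subgroup cutting out the field. -/
  H : Subgroup GalQ
  σ : GalQ
  ϖ : Qbar
  H_le : H ≤ A.inertiaSubgroupIn ℚ
  σ_mem : σ ∈ A.inertiaSubgroupIn ℚ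
  H_ζ : ∀ h ∈ H, h ζ = ζ
  H_root : ∀ h ∈ H, ∀ w : Qbar, w ^ p = u → h w = w
  H_ϖ : ∀ h ∈ H, h ϖ = ϖ
  ϖ_ne : ϖ ≠ 0
  ϖ_pow : A.valuation ϖ ^ (p * (p - 1)) = A.valuation (p : Qbar)
  tt_val : A.valuation (σ ϖ / ϖ - 1) = A.valuation ϖ
  val_fixed : ∀ x : Qbar, x ≠ 0 → (∀ h ∈ H, h x = x) →
    ∃ z : ℤ, A.valuation x = A.valuation ϖ ^ z
  dev_fixed : ∀ x : Qbar, (∀ h ∈ H, h x = x) → A.valuation x ≤ 1 →
    A.valuation (σ x - x) < A.valuation ϖ

variable {A p}

theorem valuation_natCast_lt (hA : A.LiesOverPrime p) : A.valuation (p : Qbar) < 1 :=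
  (ValuationSubring.mem_nonunits_iff A).mp hA

theorem valuation_natCast_pos (hp : p.Prime) : 0 < A.valuation (p : Qbar) :=
  zero_lt_iff.mpr ((Valuation.ne_zero_iff _).mpr (Nat.cast_ne_zero.mpr hp.ne_zero))

theorem valuation_root_of_unity {n : ℕ} (hn : n ≠ 0) {μ : Qbar} (hμ : μ ^ n = 1) :
    A.valuation μ = 1 :=
  (pow_eq_one_iff_of_nonneg zero_le hn).mp (by rw [← map_pow, hμ, map_one])

/-- Primitive `p`-th roots of unity are equally close to `1`. -/
theorem valuation_one_sub_le (hp : p.Prime) {μ ν : Qbar} (hμ : IsPrimitiveRoot μ p)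
    (hν : ν ^ p = 1) : A.valuation (1 - ν) ≤ A.valuation (1 - μ) := by
  have : NeZero p := ⟨hp.ne_zero⟩
  obtain ⟨j, -, rfl⟩ := hμ.eq_pow_of_pow_eq_one hν
  have h : 1 - μ ^ j = (1 - μ) * ∑ i ∈ Finset.range j, μ ^ i := by rw [mul_neg_geom_sum]
  rw [h, map_mul]
  refine mul_le_of_le_one_right' (A.valuation.map_sum_le fun i _ => ?_)
  rw [map_pow, valuation_root_of_unity hp.ne_zero hμ.pow_eq_one, one_pow]

theorem valuation_zeta_sub_one (hp : p.Prime) {ζ : Qbar} (hζ : IsPrimitiveRoot ζ p) :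
    A.valuation (ζ - 1) ^ (p - 1) = A.valuation (p : Qbar) := by
  have : Fact p.Prime := ⟨hp⟩
  have h : (p : Qbar) = ∏ μ ∈ primitiveRoots p Qbar, (1 - μ) := by
    rw [← eval_one_cyclotomic_prime (R := Qbar) (p := p),
      cyclotomic_eq_prod_X_sub_primitiveRoots hζ, eval_prod]
    simp
  rw [h, map_prod, Finset.prod_eq_pow_card (b := A.valuation (1 - ζ)),
    hζ.card_primitiveRoots, Nat.totient_prime hp, A.valuation.map_sub_swap ζ 1]
  intro μ hμ
  have hμ' := (mem_primitiveRoots hp.pos).mp hμ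
  exact le_antisymm (valuation_one_sub_le hp hζ hμ'.pow_eq_one)
    (valuation_one_sub_le hp hμ' hζ.pow_eq_one)

/-- The product of the translates of `w` by roots of unity. -/
theorem prod_sub_root {ζ : Qbar} (hp : p.Prime) (hζ : IsPrimitiveRoot ζ p) (w : Qbar) :
    ∏ μ ∈ nthRootsFinset p (1 : Qbar), (w - μ) = w ^ p - 1 := by
  have h := congrArg (eval w) (X_pow_sub_one_eq_prod hp.pos hζ)
  simpa [eval_prod] using h.symm

/-- A `p`-th root of `1 + s`, `v s = v p`, has `v (w - 1) ^ p = v p`. -/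
theorem valuation_root_sub_one (hp : p.Prime) (hA : A.LiesOverPrime p) {ζ : Qbar}
    (hζ : IsPrimitiveRoot ζ p) {w : Qbar}
    (hs : A.valuation (w ^ p - 1) = A.valuation (p : Qbar)) :
    A.valuation (w - 1) ^ p = A.valuation (p : Qbar) ∧ A.valuation w = 1 := by
  have hP := valuation_natCast_lt (p := p) hA
  have hw : A.valuation w = 1 := by
    refine (pow_eq_one_iff_of_nonneg zero_le hp.ne_zero).mp ?_
    rw [← map_pow, show w ^ p = 1 + (w ^ p - 1) by ring,
      A.valuation.map_add_eq_of_lt_left (by rw [map_one, hs]; exact hP), map_one]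
  refine ⟨?_, hw⟩
  set r := A.valuation (1 - ζ) with hr
  have hr1 : r ^ (p - 1) = A.valuation (p : Qbar) := by
    rw [hr, A.valuation.map_sub_swap, valuation_zeta_sub_one hp hζ]
  have hrlt : r < 1 := by
    by_contra h
    exact hP.not_ge (hr1 ▸ one_le_pow_of_one_le' (not_lt.mp h) _)
  have hr0 : 0 < r := zero_lt_iff.mpr ((Valuation.ne_zero_iff _).mpr
    (sub_ne_zero.mpr fun h => hζ.ne_one hp.one_lt h.symm))
  have hle : ∀ μ ∈ nthRootsFinset p (1 : Qbar), A.valuation (1 - μ) ≤ r := fun μ hμ =>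
    valuation_one_sub_le hp hζ ((mem_nthRootsFinset hp.pos 1).mp hμ)
  have hprod : ∏ μ ∈ nthRootsFinset p (1 : Qbar), A.valuation (w - μ) =
      A.valuation (p : Qbar) := by
    rw [← map_prod, prod_sub_root hp hζ, hs]
  have hgt : r < A.valuation (w - 1) := by
    by_contra h
    have hall : ∀ μ ∈ nthRootsFinset p (1 : Qbar), A.valuation (w - μ) ≤ r := fun μ hμ => by
      rw [show w - μ = (w - 1) + (1 - μ) by ring]
      exact A.valuation.map_add_le (not_lt.mp h) (hle μ hμ)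
    have := Finset.prod_le_pow_card _ _ _ hall
    rw [hprod, hζ.card_nthRootsFinset, ← hr1] at this
    have h' : r ^ p < r ^ (p - 1) :=
      pow_lt_pow_right_of_lt_one₀ hr0 hrlt (by have := hp.pos; omega)
    exact h'.not_ge this
  rw [← hprod, Finset.prod_eq_pow_card (b := A.valuation (w - 1)), hζ.card_nthRootsFinset]
  intro μ hμ
  rw [show w - μ = (w - 1) + (1 - μ) by ring,
    A.valuation.map_add_eq_of_lt_left (lt_of_le_of_lt (hle μ hμ) hgt)]

section Fixed

variable {σ : GalQ}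

theorem valuation_apply (hp : p.Prime) (hA : A.LiesOverPrime p)
    (hσ : σ ∈ A.inertiaSubgroupIn ℚ) (x : Qbar) : A.valuation (σ x) = A.valuation x :=
  LocalThree.val_apply hp hA (mem_inertiaSubgroupIn_iff.mp hσ).1 x

/-- An automorphism moves a root by a root of unity. -/
theorem apply_root (hp : p.Prime) {w : Qbar} (hw : w ≠ 0)
    (h : σ (w ^ p) = w ^ p) (hne : σ w ≠ w) : ∃ μ, IsPrimitiveRoot μ p ∧ σ w = μ * w := by
  have : Fact p.Prime := ⟨hp⟩
  refine ⟨σ w / w, ?_, (div_mul_cancel₀ _ hw).symm⟩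
  have h1 : (σ w / w) ^ p = 1 := by
    rw [div_pow, ← map_pow, h, div_self (pow_ne_zero _ hw)]
  refine (isPrimitiveRoot_of_mem_primitiveRoots ?_)
  rw [mem_primitiveRoots hp.pos]
  exact IsPrimitiveRoot.iff_orderOf.mpr (orderOf_eq_prime h1 fun h2 =>
    hne (by rwa [div_eq_one_iff_eq hw] at h2))

/-- A root of a unit very close to `1` is fixed by the inertia elements fixing `ζ`. -/
theorem apply_root_eq_of_close (hp : p.Prime) (hp2 : p ≠ 2) (hA : A.LiesOverPrime p) {ζ w : Qbar}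
    (hζ : IsPrimitiveRoot ζ p) (hs : A.valuation (w ^ p - 1) ≤ A.valuation (p : Qbar) ^ 2)
    (hσ : σ ∈ A.inertiaSubgroupIn ℚ) (hσζ : σ ζ = ζ) (hσw : σ (w ^ p) = w ^ p) : σ w = w := by
  by_contra hne
  have hP := valuation_natCast_lt (p := p) hA
  have hw0 : w ≠ 0 := fun h => hne (by rw [h, map_zero])
  have hw : A.valuation w = 1 := by
    refine (pow_eq_one_iff_of_nonneg zero_le hp.ne_zero).mp ?_
    rw [← map_pow, show w ^ p = 1 + (w ^ p - 1) by ring,
      A.valuation.map_add_eq_of_lt_left (by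
        rw [map_one]
        exact lt_of_le_of_lt hs (pow_lt_one₀ zero_le hP two_ne_zero)), map_one]
  obtain ⟨μ, hμ, hμw⟩ := apply_root hp hw0 hσw hne
  have : NeZero p := ⟨hp.ne_zero⟩
  set r := A.valuation (1 - μ) with hr
  have hr1 : r ^ (p - 1) = A.valuation (p : Qbar) := by
    rw [hr, A.valuation.map_sub_swap, valuation_zeta_sub_one hp hμ]
  have hrlt : r < 1 := by
    by_contra h
    exact hP.not_ge (hr1 ▸ one_le_pow_of_one_le' (not_lt.mp h) _)
  have hr0 : 0 < r := zero_lt_iff.mpr ((Valuation.ne_zero_iff _).mpr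
    (sub_ne_zero.mpr fun h => hμ.ne_one hp.one_lt h.symm))
  obtain ⟨ν, hν, hνlt⟩ : ∃ ν ∈ nthRootsFinset p (1 : Qbar), A.valuation (w - ν) < r := by
    by_contra! hall
    have := Finset.pow_card_le_prod _ _ _ hall
    rw [← map_prod, prod_sub_root hp hζ, hζ.card_nthRootsFinset] at this
    have h' : r ^ ((p - 1) * 2) < r ^ p :=
      pow_lt_pow_right_of_lt_one₀ hr0 hrlt (by have := hp.two_le; omega)
    rw [pow_mul, hr1] at h'
    exact h'.not_ge (this.trans hs)
  obtain ⟨i, -, rfl⟩ := hζ.eq_pow_of_pow_eq_one ((mem_nthRootsFinset hp.pos 1).mp hν)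
  have h1 : σ (w - ζ ^ i) - (w - ζ ^ i) = -((1 - μ) * w) := by
    rw [map_sub, map_pow, hσζ, hμw]; ring
  have h2 := congrArg A.valuation h1
  rw [Valuation.map_neg, map_mul, hw, mul_one, ← hr] at h2
  have := A.valuation.map_sub (σ (w - ζ ^ i)) (w - ζ ^ i)
  rw [valuation_apply hp hA hσ, max_self, h2] at this
  exact hνlt.not_ge this

end Fixed

section Field

variable {ζ w : Qbar}

/-- The value exponent of a monomial. -/
def expo (p : ℕ) (k : ℤ) (i j : ℕ) : ℤ := p * (p - 1 : ℕ) * k + p * i + (p - 1 : ℕ) * j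

theorem expo_dvd_iff (hp : p.Prime) {k : ℤ} {i j : ℕ} : (p : ℤ) ∣ expo p k i j ↔ p ∣ j := by
  have hcop : ¬ p ∣ p - 1 := Nat.not_dvd_of_pos_of_lt (by have := hp.two_le; omega)
    (by have := hp.two_le; omega)
  rw [expo, dvd_add_right (dvd_add (Dvd.dvd.mul_right (dvd_mul_right _ _) _) (dvd_mul_right _ _)),
    (Nat.prime_iff_prime_int.mp hp).dvd_mul, Int.natCast_dvd_natCast, Int.natCast_dvd_natCast]
  exact or_iff_right hcop

theorem expo_inj (hp : p.Prime) {k k' : ℤ} {i i' j j' : ℕ} (hi : i < p - 1) (hi' : i' < p - 1)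
    (hj : j < p) (hj' : j' < p) (h : expo p k i j = expo p k' i' j') : i = i' ∧ j = j' := by
  unfold expo at h
  have hcop : ¬ p ∣ p - 1 := Nat.not_dvd_of_pos_of_lt (by have := hp.two_le; omega)
    (by have := hp.two_le; omega)
  have hpp := Nat.prime_iff_prime_int.mp hp
  have h1 : (p : ℤ) ∣ ((p - 1 : ℕ) : ℤ) * ((j : ℤ) - j') :=
    ⟨((p - 1 : ℕ) : ℤ) * (k' - k) + (i' - i), by linear_combination h⟩
  have h2 : (p : ℤ) ∣ (j : ℤ) - j' := (hpp.dvd_mul.mp h1).resolve_left (by exact_mod_cast hcop)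
  have hjj : j = j' := by
    have := Int.eq_zero_of_abs_lt_dvd h2 (by rw [abs_lt]; omega)
    omega
  subst hjj
  refine ⟨?_, rfl⟩
  have h3 : ((p - 1 : ℕ) : ℤ) * (k - k') + ((i : ℤ) - i') = 0 := by
    refine mul_left_cancel₀ hpp.ne_zero ?_
    linear_combination h
  have := Int.eq_zero_of_abs_lt_dvd (m := ((p - 1 : ℕ) : ℤ)) (x := (i : ℤ) - i')
    ⟨k' - k, by linear_combination h3⟩ (by rw [abs_lt]; omega)
  omega

/-- Monomials in `ζ - 1` and `w - 1`. -/
def mono (ζ w : Qbar) (t : Fin (p - 1) × Fin p) : Qbar := (ζ - 1) ^ (t.1 : ℕ) * (w - 1) ^ (t.2 : ℕ)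

/-- Elements fixed by the inertia elements fixing `ζ` and `w` are combinations of monomials. -/
theorem exists_expansion (hp : p.Prime) (hζ : IsPrimitiveRoot ζ p)
    (hu : ∀ σ ∈ A.inertiaSubgroupIn ℚ, σ (w ^ p) = w ^ p) {x : Qbar}
    (hx : ∀ σ ∈ A.inertiaSubgroupIn ℚ, σ ζ = ζ → σ w = w → σ x = x) :
    ∃ c : Fin (p - 1) × Fin p → qnr A,
      x = ∑ t, (c t : Qbar) * mono (p := p) ζ w t := by
  have : Fact p.Prime := ⟨hp⟩
  have hp1 : 0 < p - 1 := by have := hp.two_le; omega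
  let M : Submodule (qnr A) Qbar := Submodule.span (qnr A) (Set.range (mono (p := p) ζ w))
  have hmono : ∀ t, mono (p := p) ζ w t ∈ M := fun t => Submodule.subset_span ⟨t, rfl⟩
  -- reduce a leading power along a monic relation
  have hred : ∀ {a : ℕ} (f : Polynomial (qnr A)) (z m : Qbar), f.Monic → f.natDegree = a →
      aeval z f = 0 → (∀ i < a, z ^ i * m ∈ M) → z ^ a * m ∈ M := by
    intro a f z m hf ha hz hlow
    have h : z ^ a * m = -∑ i ∈ Finset.range a, f.coeff i • (z ^ i * m) := by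
      rw [aeval_eq_sum_range, ha, Finset.sum_range_succ, ← ha, hf.coeff_natDegree, one_smul,
        ha] at hz
      rw [eq_neg_iff_add_eq_zero, add_comm,
        show ∑ i ∈ Finset.range a, f.coeff i • (z ^ i * m) =
          (∑ i ∈ Finset.range a, f.coeff i • z ^ i) * m by
        rw [Finset.sum_mul]; exact Finset.sum_congr rfl fun i _ => (smul_mul_assoc _ _ _).symm,
        ← add_mul, hz, zero_mul]
    rw [h]
    exact M.neg_mem (M.sum_mem fun i hi => M.smul_mem _ (hlow i (Finset.mem_range.mp hi)))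
  have hmulζ : ∀ m ∈ M, (ζ - 1) * m ∈ M := by
    intro m hm
    induction hm using Submodule.span_induction with
    | mem m hm =>
      obtain ⟨⟨i, j⟩, rfl⟩ := hm
      simp only [mono]
      rw [← mul_assoc, ← pow_succ']
      rcases Nat.lt_or_ge ((i : ℕ) + 1) (p - 1) with h | h
      · exact hmono (⟨(i : ℕ) + 1, h⟩, j)
      · rw [show (i : ℕ) + 1 = p - 1 by omega]
        refine hred ((cyclotomic p (qnr A)).comp (X + C 1)) _ _
          ((cyclotomic.monic p _).comp (monic_X_add_C 1)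
              (by rw [natDegree_X_add_C]; exact one_ne_zero))
          (by rw [natDegree_comp, natDegree_X_add_C, mul_one, natDegree_cyclotomic,
            Nat.totient_prime hp]) ?_ fun i' hi' => hmono (⟨i', hi'⟩, j)
        rw [aeval_comp, map_add, aeval_X, aeval_C, map_one, sub_add_cancel, aeval_def,
          eval₂_eq_eval_map, map_cyclotomic]
        exact hζ.isRoot_cyclotomic hp.pos
    | zero => rw [mul_zero]; exact M.zero_mem
    | add a b _ _ ha hb => rw [mul_add]; exact M.add_mem ha hb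
    | smul c a _ ha => rw [mul_smul_comm]; exact M.smul_mem _ ha
  let u : qnr A := ⟨w ^ p, mem_qnr.mpr hu⟩
  have hmulw : ∀ m ∈ M, (w - 1) * m ∈ M := by
    intro m hm
    induction hm using Submodule.span_induction with
    | mem m hm =>
      obtain ⟨⟨i, j⟩, rfl⟩ := hm
      simp only [mono]
      rw [mul_left_comm, ← pow_succ', mul_comm]
      rcases Nat.lt_or_ge ((j : ℕ) + 1) p with h | h
      · rw [mul_comm]; exact hmono (i, ⟨(j : ℕ) + 1, h⟩)
      · rw [show (j : ℕ) + 1 = p by omega]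
        refine hred ((X ^ p - C u).comp (X + C 1)) _ _
          ((monic_X_pow_sub_C u hp.ne_zero).comp (monic_X_add_C 1)
            (by rw [natDegree_X_add_C]; exact one_ne_zero))
          (by rw [natDegree_comp, natDegree_X_add_C, mul_one, natDegree_X_pow_sub_C]) ?_
          fun j' hj' => by rw [mul_comm]; exact hmono (i, ⟨j', hj'⟩)
        rw [aeval_comp, map_add, aeval_X, aeval_C, map_one, sub_add_cancel, map_sub, map_pow,
          aeval_X, aeval_C]
        exact sub_self _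
    | zero => rw [mul_zero]; exact M.zero_mem
    | add a b _ _ ha hb => rw [mul_add]; exact M.add_mem ha hb
    | smul c a _ ha => rw [mul_smul_comm]; exact M.smul_mem _ ha
  have hx' := mem_adjoin_of_fixed (A := A) {ζ, w} fun σ hσ hs =>
    hx σ hσ (hs ζ (by simp)) (hs w (by simp))
  have hmain : ∀ y ∈ Algebra.adjoin ℚ ((qnr A : Set Qbar) ∪ {ζ, w}), ∀ m ∈ M, y * m ∈ M := by
    intro y hy
    induction hy using Algebra.adjoin_induction with
    | mem y hy =>
      intro m hm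
      rcases hy with hy | rfl | rfl
      · exact M.smul_mem (⟨y, hy⟩ : qnr A) hm
      · rw [show y * m = (y - 1) * m + m by ring]; exact M.add_mem (hmulζ m hm) hm
      · rw [show y * m = (y - 1) * m + m by ring]; exact M.add_mem (hmulw m hm) hm
    | algebraMap r =>
      intro m hm
      exact M.smul_mem (⟨algebraMap ℚ Qbar r, (qnr A).algebraMap_mem r⟩ : qnr A) hm
    | add a b _ _ ha hb => intro m hm; rw [add_mul]; exact M.add_mem (ha m hm) (hb m hm)
    | mul a b _ _ ha hb => intro m hm; rw [mul_assoc]; exact ha _ (hb m hm)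
  have h1 : (1 : Qbar) ∈ M := by
    have := hmono (⟨0, hp1⟩, ⟨0, hp.pos⟩)
    simpa [mono] using this
  have hxM : x ∈ M := by simpa using hmain x hx' 1 h1
  obtain ⟨c, hc⟩ := (Submodule.mem_span_range_iff_exists_fun _).mp hxM
  exact ⟨c, hc.symm⟩

/-- The values of the monomials. -/
theorem exists_valuation_term (hp : p.Prime) (hA : A.LiesOverPrime p) {ϖ : Qbar} (hϖ : ϖ ≠ 0)
    (hζv : A.valuation (ζ - 1) = A.valuation ϖ ^ p)
    (hwv : A.valuation (w - 1) = A.valuation ϖ ^ (p - 1))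
    (hP : A.valuation ϖ ^ (p * (p - 1)) = A.valuation (p : Qbar)) {c : qnr A} (hc : c ≠ 0)
    (t : Fin (p - 1) × Fin p) :
    ∃ k : ℤ, A.valuation ((c : Qbar) * mono (p := p) ζ w t) =
      A.valuation ϖ ^ expo p k t.1 t.2 := by
  obtain ⟨k, hk⟩ := LocalThree.exists_val_zpow hp hA (x := (c : Qbar))
    (fun h => hc (Subtype.ext h)) (mem_qnr.mp c.2)
  refine ⟨k, ?_⟩
  have hv : A.valuation ϖ ≠ 0 := (Valuation.ne_zero_iff _).mpr hϖ
  rw [mono, map_mul, map_mul, map_pow, map_pow, hk, ← hP, hζv, hwv, ← zpow_natCast (A.valuation ϖ),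
    ← zpow_mul, ← pow_mul, ← pow_mul, ← zpow_natCast, ← zpow_natCast, ← zpow_add₀ hv,
    ← zpow_add₀ hv, expo]
  congr 1
  push_cast
  ring

/-- An element of the field has the value of its largest monomial. -/
theorem exists_leading (hp : p.Prime) (hA : A.LiesOverPrime p) {ϖ : Qbar} (hϖ : ϖ ≠ 0)
    (hϖlt : A.valuation ϖ < 1) (hζv : A.valuation (ζ - 1) = A.valuation ϖ ^ p)
    (hwv : A.valuation (w - 1) = A.valuation ϖ ^ (p - 1))
    (hP : A.valuation ϖ ^ (p * (p - 1)) = A.valuation (p : Qbar))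
    (c : Fin (p - 1) × Fin p → qnr A) {t₀ : Fin (p - 1) × Fin p} (ht₀ : c t₀ ≠ 0) :
    ∃ t, c t ≠ 0 ∧ A.valuation (∑ s, (c s : Qbar) * mono (p := p) ζ w s) =
        A.valuation ((c t : Qbar) * mono (p := p) ζ w t) ∧
      ∀ s, A.valuation ((c s : Qbar) * mono (p := p) ζ w s) ≤
        A.valuation ((c t : Qbar) * mono (p := p) ζ w t) := by
  classical
  let T := fun s => A.valuation ((c s : Qbar) * mono (p := p) ζ w s)
  obtain ⟨t, -, ht⟩ := Finset.exists_max_image Finset.univ T ⟨t₀, Finset.mem_univ _⟩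
  have hv : 0 < A.valuation ϖ := zero_lt_iff.mpr ((Valuation.ne_zero_iff _).mpr hϖ)
  have hpos : ∀ s, c s ≠ 0 → 0 < T s := fun s hs => by
    obtain ⟨k, hk⟩ := exists_valuation_term hp hA hϖ hζv hwv hP hs s
    show 0 < A.valuation _
    rw [hk]
    exact zpow_pos hv _
  have hzero : ∀ s, c s = 0 → T s = 0 := fun s hs => by simp [T, hs]
  have hct : c t ≠ 0 := fun h =>
    ((hpos t₀ ht₀).trans_le (ht t₀ (Finset.mem_univ _))).ne' (hzero t h)
  refine ⟨t, hct, ?_, fun s => ht s (Finset.mem_univ _)⟩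
  refine A.valuation.map_sum_eq_of_lt (Finset.mem_univ t) fun s hs => ?_
  rw [Finset.mem_sdiff, Finset.mem_singleton] at hs
  refine lt_of_le_of_ne (ht s (Finset.mem_univ _)) fun he => ?_
  rcases eq_or_ne (c s) 0 with h0 | h0
  · exact (hpos t hct).ne' (he.symm.trans (hzero s h0))
  obtain ⟨k, hk⟩ := exists_valuation_term hp hA hϖ hζv hwv hP h0 s
  obtain ⟨k', hk'⟩ := exists_valuation_term hp hA hϖ hζv hwv hP hct t
  have he' := zpow_right_injective₀ hv hϖlt.ne (hk.symm.trans (he.trans hk'))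
  obtain ⟨e₁, e₂⟩ := expo_inj hp s.1.2 t.1.2 s.2.2 t.2.2 he'
  exact hs.2 (Prod.ext (Fin.ext e₁) (Fin.ext e₂))

end Field

/-- Split off from a unit fixed by inertia a root of unity of order prime to `p` with the same
residue. -/
private theorem exists_split_unit (hp : p.Prime) (hA : A.LiesOverPrime p) {u : Qbar}
    (hu : A.valuation u = 1) (hfix : ∀ σ ∈ A.inertiaSubgroupIn ℚ, σ u = u) :
    ∃ (n : ℕ), ¬ p ∣ n ∧ ∃ η : Qbar, η ^ n = 1 ∧
      ∃ u₁ : Qbar, u = η ^ p * u₁ ∧ (∀ σ ∈ A.inertiaSubgroupIn ℚ, σ u₁ = u₁) ∧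
        A.valuation (u₁ - 1) < 1 := by
  have : Fact p.Prime := ⟨hp⟩
  set c := IsLocalRing.residue A ⟨u, (A.valuation_le_one_iff u).mp hu.le⟩
  have hc : c ≠ 0 := by
    rw [Ne, IsLocalRing.residue_eq_zero_iff, ← ValuationSubring.coe_mem_nonunits_iff,
      ValuationSubring.mem_nonunits_iff]
    exact hu.not_lt
  obtain ⟨n, hn, hcn⟩ := exists_pow_eq_one hA hc
  obtain ⟨a, b, hab⟩ : ∃ a b : ℤ, a * p + b * n = 1 :=
    (Int.isCoprime_iff_nat_coprime.mpr (hp.coprime_iff_not_dvd.mpr hn) : IsCoprime (p : ℤ) n)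
  obtain ⟨z, -, hz⟩ := exists_fixed_residue hA (c ^ a)
  obtain ⟨ξ, hξ⟩ : ∃ ξ : Qbar, IsPrimitiveRoot ξ n := by
    have hn0 : n ≠ 0 := fun h => hn (h ▸ dvd_zero p)
    have : NeZero (n : Qbar) := ⟨Nat.cast_ne_zero.mpr hn0⟩
    obtain ⟨ξ, hξ⟩ := IsAlgClosed.exists_root (cyclotomic n Qbar)
      (degree_cyclotomic_pos n Qbar (Nat.pos_of_ne_zero hn0)).ne'
    exact ⟨ξ, isRoot_cyclotomic_iff.1 hξ⟩
  have hn0 : n ≠ 0 := fun h => hn (h ▸ dvd_zero p)
  have hξA : ξ ∈ A := mem_of_isIntegral A (hξ.isIntegral (Nat.pos_of_ne_zero hn0))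
  have hξ' : IsPrimitiveRoot (⟨ξ, hξA⟩ : A) n :=
    IsPrimitiveRoot.of_map_of_injective (f := A.subtype) hξ Subtype.val_injective
  have h := congrArg (eval₂ (IsLocalRing.residue A) (c ^ a))
    (X_pow_sub_one_eq_prod (Nat.pos_of_ne_zero hn0) hξ')
  rw [eval₂_sub, eval₂_X_pow, eval₂_one, ← zpow_natCast (c ^ a), ← zpow_mul, mul_comm a,
    zpow_mul, zpow_natCast, hcn, one_zpow, sub_self, eval₂_finsetProd] at h
  obtain ⟨η, hη, hη'⟩ := Finset.prod_eq_zero_iff.mp h.symm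
  rw [eval₂_sub, eval₂_X, eval₂_C, sub_eq_zero] at hη'
  have hηn : (η : Qbar) ^ n = 1 := by
    rw [← SubmonoidClass.coe_pow, (mem_nthRootsFinset (Nat.pos_of_ne_zero hn0) 1).mp hη]; rfl
  have hvη : A.valuation (η : Qbar) = 1 := valuation_root_of_unity hn0 hηn
  have hη0 : (η : Qbar) ≠ 0 := fun h => by simp [h] at hvη
  refine ⟨n, hn, η, hηn, u / (η : Qbar) ^ p, (mul_div_cancel₀ _ (pow_ne_zero _ hη0)).symm,
    fun σ hσ => ?_, ?_⟩
  · rw [map_div₀, map_pow, hfix σ hσ, MazurStep.inertia_fixes_root_of_unity hp hn hA hσ hηn]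
  · have hres : IsLocalRing.residue A η ^ p = c := by
      rw [← hη', ← zpow_natCast, ← zpow_mul,
        show a * (p : ℤ) = 1 + (-b) * n by linear_combination hab, zpow_add₀ hc, zpow_one,
        mul_comm (-b), zpow_mul, zpow_natCast, hcn, one_zpow, mul_one]
    rw [← map_pow, ← sub_eq_zero, ← map_sub, IsLocalRing.residue_eq_zero_iff,
      ← ValuationSubring.coe_mem_nonunits_iff, ValuationSubring.mem_nonunits_iff] at hres
    push_cast at hres
    rw [show u / (η : Qbar) ^ p - 1 = (u - (η : Qbar) ^ p) / (η : Qbar) ^ p by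
      field_simp, map_div₀, map_pow, hvη, one_pow, div_one, A.valuation.map_sub_swap]
    exact hres

/-- A unit `s` with `v (s - 1) = v p` whose roots, with `ζ`, generate the roots of `u₁`. -/
private theorem exists_generating_unit (hp : p.Prime) (hp2 : p ≠ 2) (hA : A.LiesOverPrime p)
    {ζ u₁ : Qbar} (hζ : IsPrimitiveRoot ζ p)
    (hu₁fix : ∀ σ ∈ A.inertiaSubgroupIn ℚ, σ u₁ = u₁) (hclose : A.valuation (u₁ - 1) < 1) :
    ∃ s : Qbar, A.valuation (s - 1) = A.valuation (p : Qbar) ∧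
      (∀ σ ∈ A.inertiaSubgroupIn ℚ, σ s = s) ∧ ∀ w : Qbar, w ^ p = s →
        ∀ σ ∈ A.inertiaSubgroupIn ℚ, σ ζ = ζ → σ w = w →
          ∀ w' : Qbar, w' ^ p = u₁ → σ w' = w' := by
  have : NeZero p := ⟨hp.ne_zero⟩
  have hP := valuation_natCast_lt (p := p) hA
  have hP0 := valuation_natCast_pos (A := A) hp
  by_cases h : A.valuation (u₁ - 1) = A.valuation (p : Qbar)
  · refine ⟨u₁, h, hu₁fix, fun w hw σ hσ hσζ hσw w' hw' => ?_⟩
    have hw0 : w ≠ 0 := fun h0 => by
      rw [h0, zero_pow hp.ne_zero] at hw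
      rw [← hw, zero_sub, Valuation.map_neg, map_one] at h
      exact hP.ne h.symm
    obtain ⟨i, -, hi⟩ := hζ.eq_pow_of_pow_eq_one (ξ := w' / w)
      (by rw [div_pow, hw', hw, div_self (hw ▸ pow_ne_zero _ hw0)])
    rw [← div_mul_cancel₀ w' hw0, ← hi, map_mul, map_pow, hσζ, hσw]
  · refine ⟨1 + p, by rw [add_sub_cancel_left], fun σ _ => by rw [map_add, map_one, map_natCast],
      fun w _ σ hσ hσζ _ w' hw' => ?_⟩
    rcases eq_or_ne u₁ 1 with h1 | h1
    · obtain ⟨i, -, hi⟩ := hζ.eq_pow_of_pow_eq_one (hw'.trans h1)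
      rw [← hi, map_pow, hσζ]
    refine apply_root_eq_of_close hp hp2 hA hζ ?_ hσ hσζ (hw' ▸ hu₁fix σ hσ)
    obtain ⟨k, hk⟩ := LocalThree.exists_val_zpow hp hA (sub_ne_zero.mpr h1) fun τ hτ => by
      rw [map_sub, map_one, hu₁fix τ hτ]
    rw [hw', hk, ← zpow_natCast]
    refine zpow_le_zpow_right_of_le_one₀ hP0 hP.le ?_
    rw [hk] at h hclose
    rcases lt_trichotomy k 1 with hlt | rfl | hgt
    · refine absurd (zpow_le_zpow_right_of_le_one₀ hP0 hP.le (show k ≤ 0 by omega)) ?_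
      rw [zpow_zero]
      exact hclose.not_ge
    · exact absurd (zpow_one _) h
    · push_cast; omega

section Wild

variable (hp : p.Prime) (hA : A.LiesOverPrime p) {ζ w ϖ : Qbar} (hϖ0 : ϖ ≠ 0)
  (hϖlt : A.valuation ϖ < 1) (hζv : A.valuation (ζ - 1) = A.valuation ϖ ^ p)
  (hwv' : A.valuation (w - 1) = A.valuation ϖ ^ (p - 1))
  (hϖP : A.valuation ϖ ^ (p * (p - 1)) = A.valuation (p : Qbar))

include hp hA hϖ0 hϖlt hζv hwv' hϖP

/-- Some inertia element fixing `ζ` moves `w`, since no element of the unramified extension by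
`ζ` has the value of `w - 1`. -/
private theorem exists_moving (hζ : IsPrimitiveRoot ζ p) :
    ∃ σ ∈ A.inertiaSubgroupIn ℚ, σ ζ = ζ ∧ σ w ≠ w := by
  have hϖpos : 0 < A.valuation ϖ := zero_lt_iff.mpr ((Valuation.ne_zero_iff _).mpr hϖ0)
  have := hp.two_le
  have hy0 : w - 1 ≠ 0 := fun h => by
    rw [h, map_zero] at hwv'
    exact (pow_ne_zero _ hϖpos.ne') hwv'.symm
  by_contra hno
  push Not at hno
  obtain ⟨c, hc⟩ := exists_expansion (A := A) (w := (1 : Qbar)) (x := w - 1) hp hζ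
    (fun σ _ => by rw [one_pow, map_one])
    (fun σ hσ hσζ _ => by rw [map_sub, map_one, hno σ hσ hσζ])
  classical
  let c' : Fin (p - 1) × Fin p → qnr A := fun t => if (t.2 : ℕ) = 0 then c t else 0
  have hc' : w - 1 = ∑ t, (c' t : Qbar) * mono (p := p) ζ w t := by
    rw [hc]
    refine Finset.sum_congr rfl fun t _ => ?_
    simp only [c', mono]
    split_ifs with h
    · rw [h, pow_zero, pow_zero]
    · simp [zero_pow h]
  obtain ⟨t₀, ht₀⟩ : ∃ t, c' t ≠ 0 := by
    by_contra! h0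
    exact hy0 (hc'.trans (Finset.sum_eq_zero fun t _ => by simp [h0 t]))
  obtain ⟨t, ht, hval, -⟩ := exists_leading hp hA hϖ0 hϖlt hζv hwv' hϖP c' ht₀
  rw [← hc', hwv'] at hval
  obtain ⟨k, hk⟩ := exists_valuation_term hp hA hϖ0 hζv hwv' hϖP ht t
  rw [hk, ← zpow_natCast] at hval
  have he := zpow_right_injective₀ hϖpos hϖlt.ne hval
  have hj : (t.2 : ℕ) = 0 := by
    by_contra h; exact ht (if_neg h)
  have hdvd : (p : ℤ) ∣ ((p - 1 : ℕ) : ℤ) := by
    rw [he]
    exact (expo_dvd_iff hp).mpr (hj ▸ dvd_zero p)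
  exact Nat.not_dvd_of_pos_of_lt (by omega) (by omega) (Int.natCast_dvd_natCast.mp hdvd)

/-- The automorphism moves an integral combination of monomials by less than `ϖ`. -/
private theorem valuation_apply_sub_lt {σ : GalQ} (hσI : σ ∈ A.inertiaSubgroupIn ℚ)
    (hσζ : σ ζ = ζ) (hdy : A.valuation (σ (w - 1) - (w - 1)) = A.valuation ϖ ^ p)
    (c : Fin (p - 1) × Fin p → qnr A)
    (hx1 : A.valuation (∑ t, (c t : Qbar) * mono (p := p) ζ w t) ≤ 1) :
    A.valuation (σ (∑ t, (c t : Qbar) * mono (p := p) ζ w t) -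
      ∑ t, (c t : Qbar) * mono (p := p) ζ w t) < A.valuation ϖ := by
  have hϖpos : 0 < A.valuation ϖ := zero_lt_iff.mpr ((Valuation.ne_zero_iff _).mpr hϖ0)
  have hσy : A.valuation (σ (w - 1)) = A.valuation ϖ ^ (p - 1) := by
    rw [valuation_apply hp hA hσI, hwv']
  rw [map_sum, ← Finset.sum_sub_distrib]
  refine A.valuation.map_sum_lt hϖpos.ne' fun t _ => ?_
  have hT : σ ((c t : Qbar) * mono (p := p) ζ w t) - (c t : Qbar) * mono (p := p) ζ w t =
      (c t : Qbar) * (ζ - 1) ^ (t.1 : ℕ) *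
        (σ (w - 1) ^ (t.2 : ℕ) - (w - 1) ^ (t.2 : ℕ)) := by
    simp only [mono, map_mul, map_pow]
    rw [map_sub σ ζ, map_one, hσζ, mem_qnr.mp (c t).2 σ hσI]
    ring
  rw [hT]
  rcases eq_or_ne (c t) 0 with h0 | h0
  · simp [h0, hϖpos]
  obtain ⟨t', ht', hval, hmax⟩ := exists_leading hp hA hϖ0 hϖlt hζv hwv' hϖP c h0
  obtain ⟨k, hk⟩ := exists_valuation_term hp hA hϖ0 hζv hwv' hϖP h0 t
  have hterm : A.valuation ((c t : Qbar) * mono (p := p) ζ w t) ≤ 1 :=
    (hmax t).trans (hval.symm.trans_le hx1)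
  rcases Nat.eq_zero_or_pos (t.2 : ℕ) with hj | hj
  · rw [hj, pow_zero, pow_zero, sub_self, mul_zero, map_zero]; exact hϖpos
  have hlt : A.valuation ((c t : Qbar) * mono (p := p) ζ w t) < 1 := by
    refine lt_of_le_of_ne hterm fun he => ?_
    have he' := zpow_right_injective₀ hϖpos hϖlt.ne (hk.symm.trans (he.trans (zpow_zero _).symm))
    exact Nat.not_dvd_of_pos_of_lt hj t.2.2 ((expo_dvd_iff hp).mp (he' ▸ dvd_zero _))
  obtain ⟨m, hm⟩ : ∃ m, (t.2 : ℕ) = m + 1 := ⟨(t.2 : ℕ) - 1, by omega⟩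
  have hgeom : A.valuation (σ (w - 1) ^ (t.2 : ℕ) - (w - 1) ^ (t.2 : ℕ)) ≤
      A.valuation (w - 1) ^ (t.2 : ℕ) * A.valuation ϖ := by
    rw [← geom_sum₂_mul, map_mul, hdy]
    calc A.valuation (∑ i ∈ Finset.range (t.2 : ℕ),
          σ (w - 1) ^ i * (w - 1) ^ ((t.2 : ℕ) - 1 - i)) * A.valuation ϖ ^ p
        ≤ A.valuation (w - 1) ^ m * A.valuation ϖ ^ p := by
          refine mul_le_mul' (A.valuation.map_sum_le fun i hi => ?_) le_rfl
          rw [Finset.mem_range] at hi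
          rw [map_mul, map_pow, map_pow, hσy, ← hwv', ← pow_add,
            show i + ((t.2 : ℕ) - 1 - i) = m by omega]
      _ = A.valuation (w - 1) ^ (t.2 : ℕ) * A.valuation ϖ := by
          rw [hm, pow_succ, mul_assoc, hwv', ← pow_succ, Nat.sub_one_add_one hp.ne_zero]
  rw [map_mul]
  calc A.valuation ((c t : Qbar) * (ζ - 1) ^ (t.1 : ℕ)) *
        A.valuation (σ (w - 1) ^ (t.2 : ℕ) - (w - 1) ^ (t.2 : ℕ))
      ≤ A.valuation ((c t : Qbar) * (ζ - 1) ^ (t.1 : ℕ)) *
        (A.valuation (w - 1) ^ (t.2 : ℕ) * A.valuation ϖ) := mul_le_mul' le_rfl hgeom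
    _ = A.valuation ((c t : Qbar) * mono (p := p) ζ w t) * A.valuation ϖ := by
        rw [← mul_assoc, ← map_pow, ← map_mul, mono, mul_assoc (c t : Qbar)]
    _ < A.valuation ϖ := mul_lt_of_lt_one_left hϖpos hlt

end Wild

/-- The wild data exists for every unit fixed by inertia. -/
theorem nonempty_kummerData (hp : p.Prime) (hp2 : p ≠ 2) (hA : A.LiesOverPrime p) {ζ u : Qbar}
    (hζ : IsPrimitiveRoot ζ p) (hu : A.valuation u = 1)
    (hfix : ∀ σ ∈ A.inertiaSubgroupIn ℚ, σ u = u) : Nonempty (KummerData A p ζ u) := by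
  have hP := valuation_natCast_lt (p := p) hA
  have hP0 := valuation_natCast_pos (A := A) hp
  obtain ⟨n, hn, η, hη, u₁, hu₁, hu₁fix, hclose⟩ := exists_split_unit hp hA hu hfix
  have hn0 : n ≠ 0 := fun h => hn (h ▸ dvd_zero p)
  have hη0 : η ≠ 0 := fun h => by rw [h, zero_pow hn0] at hη; exact zero_ne_one hη
  obtain ⟨s, hs, hsfix, hroots⟩ := exists_generating_unit hp hp2 hA hζ hu₁fix hclose
  obtain ⟨w, hw⟩ := IsAlgClosed.exists_pow_nat_eq s hp.pos
  obtain ⟨hwv, hw1⟩ := valuation_root_sub_one hp hA hζ (w := w) (by rw [hw, hs])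
  have hwfix : ∀ σ ∈ A.inertiaSubgroupIn ℚ, σ (w ^ p) = w ^ p := fun σ hσ => by
    rw [hw, hsfix σ hσ]
  have hy0 : w - 1 ≠ 0 := fun h => by
    rw [h, map_zero, zero_pow hp.ne_zero] at hwv; exact hP0.ne hwv
  have hπ0 : ζ - 1 ≠ 0 := sub_ne_zero.mpr (hζ.ne_one hp.one_lt)
  have hπv := valuation_zeta_sub_one (A := A) hp hζ
  set ϖ := (ζ - 1) / (w - 1) with hϖdef
  have hϖ0 : ϖ ≠ 0 := div_ne_zero hπ0 hy0
  have hp1 : p - 1 ≠ 0 := by have := hp.two_le; omega
  have hvy : A.valuation (w - 1) ≠ 0 := (Valuation.ne_zero_iff _).mpr hy0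
  have hϖP : A.valuation ϖ ^ (p * (p - 1)) = A.valuation (p : Qbar) := by
    rw [hϖdef, map_div₀, div_pow, mul_comm p, pow_mul, hπv, mul_comm (p - 1), pow_mul, hwv,
      div_eq_iff (pow_ne_zero _ hP0.ne'), ← pow_succ',
      Nat.sub_one_add_one hp.ne_zero]
  have hζv : A.valuation (ζ - 1) = A.valuation ϖ ^ p :=
    (pow_left_inj₀ zero_le zero_le hp1).mp (by rw [hπv, ← pow_mul, hϖP])
  have hwv' : A.valuation (w - 1) = A.valuation ϖ ^ (p - 1) :=
    (pow_left_inj₀ zero_le zero_le hp.ne_zero).mp (by rw [hwv, ← pow_mul, mul_comm, hϖP])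
  have hϖlt : A.valuation ϖ < 1 := by
    by_contra h
    exact hP.not_ge (hϖP ▸ one_le_pow_of_one_le' (not_lt.mp h) _)
  have hϖpos : 0 < A.valuation ϖ := zero_lt_iff.mpr ((Valuation.ne_zero_iff _).mpr hϖ0)
  obtain ⟨σ, hσI, hσζ, hσw⟩ := exists_moving hp hA hϖ0 hϖlt hζv hwv' hϖP hζ
  obtain ⟨μ, hμ, hμw⟩ := apply_root hp (fun h => by simp [h] at hσw) (hwfix σ hσI) hσw
  have hdy : A.valuation (σ (w - 1) - (w - 1)) = A.valuation ϖ ^ p := by
    rw [map_sub σ w 1, map_one σ, hμw, show μ * w - 1 - (w - 1) = (μ - 1) * w by ring, map_mul, hw1,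
      mul_one, ← hζv]
    exact (pow_left_inj₀ zero_le zero_le hp1).mp (by rw [valuation_zeta_sub_one hp hμ, hπv])
  have hσy : A.valuation (σ (w - 1)) = A.valuation ϖ ^ (p - 1) := by
    rw [valuation_apply hp hA hσI, hwv']
  refine ⟨{
    H := A.inertiaSubgroupIn ℚ ⊓ MulAction.stabilizer GalQ ζ ⊓ MulAction.stabilizer GalQ w
    σ := σ
    ϖ := ϖ
    H_le := inf_le_left.trans inf_le_left
    σ_mem := hσI
    H_ζ := fun h hh => hh.1.2
    H_root := fun h hh w' hw' => ?_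
    H_ϖ := fun h hh => ?_
    ϖ_ne := hϖ0
    ϖ_pow := hϖP
    tt_val := ?_
    val_fixed := fun x hx0 hx => ?_
    dev_fixed := fun x hx hx1 => ?_ }⟩
  · have hr := hroots w hw h hh.1.1 hh.1.2 hh.2 (w' / η) (by
      rw [div_pow, hw', hu₁, mul_div_cancel_left₀ _ (pow_ne_zero _ hη0)])
    rw [map_div₀, MazurStep.inertia_fixes_root_of_unity hp hn hA hh.1.1 hη] at hr
    exact (div_left_inj' hη0).mp hr
  · rw [hϖdef, map_div₀, map_sub, map_sub, map_one, show h ζ = ζ from hh.1.2,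
      show h w = w from hh.2]
  · rw [hϖdef, map_div₀, map_sub σ ζ, map_one, hσζ, ← hϖdef]
    have hσy0 : σ (w - 1) ≠ 0 := (map_ne_zero σ).mpr hy0
    rw [show (ζ - 1) / σ (w - 1) / ϖ - 1 = -(σ (w - 1) - (w - 1)) / σ (w - 1) by
      rw [hϖdef]; field_simp; ring, map_div₀, Valuation.map_neg, hdy, hσy,
      show p = p - 1 + 1 by omega, pow_succ, Nat.add_sub_cancel,
      mul_div_cancel_left₀ _ (pow_ne_zero _ hϖpos.ne')]
  · obtain ⟨c, rfl⟩ := exists_expansion hp hζ hwfix fun τ hτ h1 h2 => hx τ ⟨⟨hτ, h1⟩, h2⟩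
    obtain ⟨t₀, ht₀⟩ : ∃ t, c t ≠ 0 := by
      by_contra! h0
      exact hx0 (Finset.sum_eq_zero fun t _ => by simp [h0 t])
    obtain ⟨t, ht, hval, -⟩ := exists_leading hp hA hϖ0 hϖlt hζv hwv' hϖP c ht₀
    obtain ⟨k, hk⟩ := exists_valuation_term hp hA hϖ0 hζv hwv' hϖP ht t
    exact ⟨_, hval.trans hk⟩
  · obtain ⟨c, rfl⟩ := exists_expansion hp hζ hwfix fun τ hτ h1 h2 => hx τ ⟨⟨hτ, h1⟩, h2⟩
    exact valuation_apply_sub_lt hp hA hϖ0 hϖlt hζv hwv' hϖP hσI hσζ hdy c hx1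

end FLTAgent.SemistableWild

end
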